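import Mathlib
import Fermat.Agent.DSLift.QExp
import Fermat.Agent.ModCurve.Forms.Basic
import Fermat.Agent.ModCurve.Forms.IntegralForms
import Fermat.Prelude.Def_ModularForm_HeckeOperatorForms

/-!
The `q`-expansions of weight two cusp forms of all levels: the operators `V_d`, `U_d`, the
restriction of the level, and the depletion at a prime.
-/

set_option autoImplicit false

noncomputable section

namespace FermatAgent.RTLift.NewPart

open CongruenceSubgroup ModularFormClass UpperHalfPlane ModularForm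
open scoped MatrixGroups ModularForm Pointwise

/-- Weight two cusp forms on `Γ₀(L)`. -/
abbrev CF (L : ℕ) := CuspForm (Gamma0 L) 2

variable {L L' : ℕ}

theorem slash_eq_self (f : CF L) {γ : SL(2, ℤ)} (hγ : γ ∈ Gamma0 L) :
    ⇑f ∣[(2 : ℤ)] γ = ⇑f :=
  SlashInvariantFormClass.slash_action_eq f _ (Subgroup.mem_map_of_mem _ hγ)

theorem gamma0_le (h : L ∣ L') : Gamma0 L' ≤ Gamma0 L := fun γ hγ => by
  rw [Gamma0_mem, ZMod.intCast_zmod_eq_zero_iff_dvd] at hγ ⊢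
  exact (Int.natCast_dvd_natCast.mpr h).trans hγ

/-- A form as a form of higher level. -/
def restr [NeZero L'] (h : L ∣ L') : CF L →ₗ[ℂ] CF L' :=
  haveI : NeZero L := ⟨fun h0 => NeZero.ne L' (zero_dvd_iff.mp (h0 ▸ h))⟩
  { toFun := fun f =>
      (ModCurve.Forms.IsCF.toCuspForm (Γ := Gamma0 L') (k := 2) (f := ⇑f)
        ⟨⟨f.holo', fun γ hγ => slash_eq_self f (gamma0_le h hγ),
          fun γ => (CuspFormClass.zero_at_infty_slash f γ).isBoundedAtImInfty⟩,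
          fun γ => CuspFormClass.zero_at_infty_slash f γ⟩)
    map_add' := fun f g => DFunLike.coe_injective (by simp)
    map_smul' := fun c f => DFunLike.coe_injective (by simp) }

@[simp] theorem coe_restr [NeZero L'] (h : L ∣ L') (f : CF L) : ⇑(restr h f) = ⇑f := rfl

theorem coe_GL_of_SL (A : SL(2, ℤ)) :
    ((A : GL (Fin 2) ℝ) : Matrix (Fin 2) (Fin 2) ℝ) =
      (A : Matrix (Fin 2) (Fin 2) ℤ).map (Int.cast : ℤ → ℝ) := rfl

theorem heckeDiag_slash_invariant {d : ℕ} (hd : d ≠ 0) (h : L * d ∣ L') (f : CF L)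
    {γ : SL(2, ℤ)} (hγ : γ ∈ Gamma0 L') :
    (⇑f ∣[(2 : ℤ)] heckeDiagMatrix d) ∣[(2 : ℤ)] γ = ⇑f ∣[(2 : ℤ)] heckeDiagMatrix d := by
  obtain ⟨m, hm⟩ := (Int.natCast_dvd_natCast.mpr h).trans
    ((ZMod.intCast_zmod_eq_zero_iff_dvd _ _).mp (Gamma0_mem.mp hγ))
  have hdet : γ 0 0 * γ 1 1 - γ 0 1 * γ 1 0 = 1 := by
    rw [← Matrix.det_fin_two]; exact γ.2
  let δ : SL(2, ℤ) := ⟨!![γ 0 0, d * γ 0 1; L * m, γ 1 1], by
    rw [Matrix.det_fin_two_of]
    push_cast at hm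
    linear_combination hdet + γ 0 1 * hm⟩
  have hδ : δ ∈ Gamma0 L :=
    Gamma0_mem.mpr ((ZMod.intCast_zmod_eq_zero_iff_dvd _ _).mpr ⟨m, by simp [δ]⟩)
  have he : heckeDiagMatrix d * (γ : GL (Fin 2) ℝ) =
      (δ : GL (Fin 2) ℝ) * heckeDiagMatrix d := by
    refine Units.ext ?_
    have hm' : ((γ 1 0 : ℤ) : ℝ) = (L : ℝ) * d * m := by rw [hm]; push_cast; ring
    rw [Units.val_mul, Units.val_mul, coe_GL_of_SL, coe_GL_of_SL, val_heckeDiagMatrix hd]
    ext i j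
    fin_cases i <;> fin_cases j <;>
      simp [Matrix.mul_apply, Fin.sum_univ_two, δ, Matrix.map_apply]
    · ring
    · rw [hm']; ring
  rw [ModularForm.SL_slash, ← SlashAction.slash_mul, he, SlashAction.slash_mul, ← ModularForm.SL_slash,
    slash_eq_self f hδ]

theorem isCF_slash_diag [NeZero L'] {d : ℕ} (hd : d ≠ 0) (h : L * d ∣ L') (f : CF L) :
    ModCurve.Forms.IsCF (Gamma0 L') 2 (⇑f ∣[(2 : ℤ)] heckeDiagMatrix d) := by
  have : NeZero L := ⟨fun h0 => by simp [h0] at h; exact NeZero.ne L' h⟩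
  have hz : ∀ δ : SL(2, ℤ), IsZeroAtImInfty ((⇑f ∣[(2 : ℤ)] heckeDiagMatrix d) ∣[(2 : ℤ)] δ) := by
    intro δ
    obtain ⟨g, hg⟩ : ∃ g : GL (Fin 2) ℚ, heckeDiagMatrix d = g.map (Rat.castHom ℝ) :=
      ⟨Matrix.GeneralLinearGroup.mkOfDetNeZero !![(d : ℚ), 0; 0, 1] (by simp [hd]), by
        refine Units.ext ?_
        ext i j
        fin_cases i <;> fin_cases j <;> simp [val_heckeDiagMatrix hd]⟩
    have : (ConjAct.toConjAct (heckeDiagMatrix d)⁻¹ •
        (Gamma0 L : Subgroup (GL (Fin 2) ℝ))).IsArithmetic := by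
      rw [hg, ← map_inv]
      exact Subgroup.IsArithmetic.conj _ _
    exact CuspFormClass.zero_at_infty_slash (CuspForm.translate f (heckeDiagMatrix d)) δ
  exact ⟨⟨(CuspForm.translate f (heckeDiagMatrix d)).holo',
    fun γ hγ => heckeDiag_slash_invariant hd h f hγ, fun γ => (hz γ).isBoundedAtImInfty⟩, hz⟩

/-- The operator `f(τ) ↦ f(d τ)`. -/
def vForm [NeZero L'] {d : ℕ} (hd : d ≠ 0) (h : L * d ∣ L') (f : CF L) : CF L' :=
  (d : ℂ)⁻¹ • (isCF_slash_diag hd h f).toCuspForm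

theorem qCoeff_vForm [NeZero L'] {d : ℕ} (hd : d ≠ 0) (h : L * d ∣ L') (f : CF L) (n : ℕ) :
    qCoeff ⇑(vForm hd h f) n = if d ∣ n then qCoeff ⇑f (n / d) else 0 := by
  have hL : L ∣ L' := (dvd_mul_right L d).trans h
  have hdL' : d ∣ L' := (dvd_mul_left d L).trans h
  have he : heckeT (2 : ℤ) d ⇑f =
      ⇑(CuspForm.heckeULin 2 hdL' (restr hL f) + (isCF_slash_diag hd h f).toCuspForm) := by
    rw [heckeT_eq_heckeU_add]
    rfl
  have h1 := ModularFormClass.qCoeff_heckeT f (one_mem_strictPeriods_Gamma0 L) hd n (k := 2)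
  rw [he, DSLift.qCoeff_add', DSLift.qCoeff_heckeULin hd hdL', coe_restr,
    ModularForm.coeffHeckeT_apply] at h1
  rw [vForm, DSLift.qCoeff_smul', add_left_cancel h1]
  split_ifs with hdn
  · rw [show (2 : ℤ) - 1 = 1 from rfl, zpow_one, ← mul_assoc,
      inv_mul_cancel₀ (Nat.cast_ne_zero.mpr hd), one_mul]
  · rw [mul_zero]

/-- The sequences of `q`-coefficients of forms of level `L`. -/
def coeffs (L : ℕ) : Submodule ℂ (ℕ → ℂ) :=
  LinearMap.range (LinearMap.pi fun n => DSLift.qCoeffLin L 2 n)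

theorem mem_coeffs {a : ℕ → ℂ} : a ∈ coeffs L ↔ ∃ f : CF L, ∀ n, qCoeff ⇑f n = a n :=
  ⟨fun ⟨f, hf⟩ => ⟨f, fun n => congrFun hf n⟩, fun ⟨f, hf⟩ => ⟨f, funext hf⟩⟩

/-- Multiplication of the index by `d`. -/
def uShift (d : ℕ) : (ℕ → ℂ) →ₗ[ℂ] (ℕ → ℂ) := LinearMap.funLeft ℂ ℂ fun n => n * d

@[simp] theorem uShift_apply (d : ℕ) (a : ℕ → ℂ) (n : ℕ) : uShift d a n = a (n * d) := rfl

/-- Division of the index by `d`. -/
def vShift (d : ℕ) : (ℕ → ℂ) →ₗ[ℂ] (ℕ → ℂ) where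
  toFun a n := if d ∣ n then a (n / d) else 0
  map_add' a b := funext fun n => by simp only [Pi.add_apply]; split_ifs <;> simp
  map_smul' c a := funext fun n => by simp only [Pi.smul_apply, RingHom.id_apply]; split_ifs <;> simp

theorem vShift_apply (d : ℕ) (a : ℕ → ℂ) (n : ℕ) :
    vShift d a n = if d ∣ n then a (n / d) else 0 := rfl

theorem coeffs_mono [NeZero L'] (h : L ∣ L') : coeffs L ≤ coeffs L' := by
  intro a ha
  obtain ⟨f, hf⟩ := mem_coeffs.mp ha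
  exact mem_coeffs.mpr ⟨restr h f, hf⟩

theorem vShift_mem [NeZero L'] {d : ℕ} (hd : d ≠ 0) (h : L * d ∣ L') {a : ℕ → ℂ}
    (ha : a ∈ coeffs L) : vShift d a ∈ coeffs L' := by
  obtain ⟨f, hf⟩ := mem_coeffs.mp ha
  exact mem_coeffs.mpr ⟨vForm hd h f, fun n => by rw [qCoeff_vForm, vShift_apply, hf]⟩

theorem uShift_mem [NeZero L] {d : ℕ} (hd : d ≠ 0) (h : d ∣ L) {a : ℕ → ℂ} (ha : a ∈ coeffs L) :
    uShift d a ∈ coeffs L := by
  obtain ⟨f, hf⟩ := mem_coeffs.mp ha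
  exact mem_coeffs.mpr ⟨CuspForm.heckeULin 2 h f, fun n => by
    rw [DSLift.qCoeff_heckeULin hd, hf, uShift_apply]⟩

theorem coeff_zero_of_mem {a : ℕ → ℂ} (ha : a ∈ coeffs L) : a 0 = 0 := by
  obtain ⟨f, hf⟩ := mem_coeffs.mp ha
  rw [← hf, DSLift.qCoeff_zero_index]

theorem finite_coeffs (L : ℕ) [NeZero L] : FiniteDimensional ℂ (coeffs L) :=
  have := DSLift.finiteDimensional_cuspForm (ModCurve.Forms.hasIntegralStructure_two L)
  Module.Finite.range _

/-- Killing the coefficients at multiples of `r`. -/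
def deplete (r : ℕ) (a : ℕ → ℂ) (n : ℕ) : ℂ := if r ∣ n then 0 else a n

theorem deplete_mem [NeZero L'] {r : ℕ} (hr : r ≠ 0) (h : L * r * r ∣ L') {a : ℕ → ℂ}
    (ha : a ∈ coeffs L) : deplete r a ∈ coeffs L' := by
  have : NeZero (L * r) := ⟨fun h0 => NeZero.ne L' (zero_dvd_iff.mp (by simpa [h0] using h))⟩
  have h1 : deplete r a = a - vShift r (uShift r a) := funext fun n => by
    simp only [deplete, Pi.sub_apply, vShift_apply, uShift_apply]
    split_ifs with hn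
    · rw [Nat.div_mul_cancel hn, sub_self]
    · rw [sub_zero]
  rw [h1]
  refine sub_mem (coeffs_mono (((dvd_mul_right L r).trans (dvd_mul_right _ r)).trans h) ha) ?_
  exact vShift_mem hr h (uShift_mem hr (dvd_mul_left r L) (coeffs_mono (dvd_mul_right L r) ha))

end FermatAgent.RTLift.NewPart
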