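import Mathlib
import Fermat.Agent.RTLift.NewPart.CoeffSpace

/-!
A form of level `L q` (`q ∤ L`) whose expansion is supported on multiples of `q` comes from level
`L`; a nonzero form of level prime to `q` is never so supported. Consequently the eigenvalue of
`U_q` of a form old at `q` is a root of `X² - a_q X + q`.
-/

set_option autoImplicit false

noncomputable section

namespace FermatAgent.RTLift.NewPart

open CongruenceSubgroup ModularFormClass UpperHalfPlane ModularForm
open scoped MatrixGroups ModularForm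

variable {L q : ℕ}

theorem slash_heckeMatrix_zero_T [NeZero L] (hq : q ≠ 0) (f : CF L)
    (hsupp : ∀ n, ¬ q ∣ n → qCoeff ⇑f n = 0) :
    (⇑f ∣[(2 : ℤ)] heckeMatrix q 0) ∣[(2 : ℤ)] ModularGroup.T = ⇑f ∣[(2 : ℤ)] heckeMatrix q 0 := by
  have hqC : (q : ℂ) ≠ 0 := Nat.cast_ne_zero.mpr hq
  have : Fact (IsCusp OnePoint.infty (Gamma0 L : Subgroup (GL (Fin 2) ℝ))) :=
    ⟨Subgroup.isCusp_of_mem_strictPeriods one_pos (one_mem_strictPeriods_Gamma0 L)⟩
  have hsum := hasSum_qExpansion (f := ⇑f) one_pos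
    (SlashInvariantFormClass.periodic_comp_ofComplex f (one_mem_strictPeriods_Gamma0 L))
    (CuspFormClass.holo f) (ModularFormClass.bdd_at_infty f)
  funext τ
  rw [ModularForm.SL_slash_apply, slash_heckeMatrix_apply 2 hq, slash_heckeMatrix_apply 2 hq]
  have hden : denom (ModularGroup.T : GL (Fin 2) ℝ) τ = 1 := by
    simp [denom, ModularGroup.coe_T]
  rw [hden, one_zpow, mul_one]
  congr 1
  refine (hsum _).unique ?_
  refine (hsum (heckeMatrix q 0 • τ)).congr_fun fun n => ?_
  by_cases hn : q ∣ n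
  · obtain ⟨m, rfl⟩ := hn
    congr 1
    simp only [Function.Periodic.qParam, coe_heckeMatrix_smul hq, modular_T_smul,
      UpperHalfPlane.coe_vadd]
    rw [← Complex.exp_nat_mul, ← Complex.exp_nat_mul, Complex.exp_eq_exp_iff_exists_int]
    refine ⟨m, ?_⟩
    push_cast
    field_simp
    ring
  · rw [show (qExpansion 1 ⇑f).coeff n = 0 from hsupp n hn, zero_smul, zero_smul]

/-- **Descent.** -/
theorem uShift_mem_of_supported [NeZero L] (hq : q.Prime) (_hqL : ¬ q ∣ L) {a : ℕ → ℂ}
    (ha : a ∈ coeffs (L * q)) (hsupp : ∀ n, ¬ q ∣ n → a n = 0) : uShift q a ∈ coeffs L := by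
  have : NeZero q := ⟨hq.ne_zero⟩
  have : NeZero (L * q) := ⟨mul_ne_zero (NeZero.ne L) hq.ne_zero⟩
  obtain ⟨F, hF⟩ := mem_coeffs.mp ha
  set g : ℍ → ℂ := ⇑F ∣[(2 : ℤ)] heckeMatrix q 0
  have hgT : g ∣[(2 : ℤ)] ModularGroup.T = g :=
    slash_heckeMatrix_zero_T hq.ne_zero F fun n hn => by rw [hF, hsupp n hn]
  have hTnat : ∀ j : ℕ, g ∣[(2 : ℤ)] (ModularGroup.T ^ j) = g := fun j => by
    induction j with
    | zero => rw [pow_zero, SlashAction.slash_one]
    | succ j ih => rw [pow_succ, SlashAction.slash_mul, ih, hgT]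
  have hTz : ∀ j : ℤ, g ∣[(2 : ℤ)] (ModularGroup.T ^ j) = g := fun j => by
    rcases Int.eq_nat_or_neg j with ⟨n, rfl | rfl⟩
    · rw [zpow_natCast]; exact hTnat n
    · conv_lhs => rw [← hTnat n, ← SlashAction.slash_mul, ← zpow_natCast, ← zpow_add,
        add_neg_cancel, zpow_zero, SlashAction.slash_one]
  -- invariance under elements with upper right entry divisible by `q`
  have hupper : ∀ γ ∈ Gamma0 L, (q : ℤ) ∣ γ 0 1 → g ∣[(2 : ℤ)] γ = g := by
    intro γ hγ hb
    obtain ⟨b, hb⟩ := hb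
    have hdet : γ 0 0 * γ 1 1 - γ 0 1 * γ 1 0 = 1 := by
      rw [← Matrix.det_fin_two]; exact γ.2
    obtain ⟨m, hm⟩ := (ZMod.intCast_zmod_eq_zero_iff_dvd _ _).mp (Gamma0_mem.mp hγ)
    let δ : SL(2, ℤ) := ⟨!![γ 0 0, b; q * γ 1 0, γ 1 1], by
      rw [Matrix.det_fin_two_of]; linear_combination hdet + γ 1 0 * hb⟩
    have hδ : δ ∈ Gamma0 (L * q) :=
      Gamma0_mem.mpr ((ZMod.intCast_zmod_eq_zero_iff_dvd _ _).mpr
        ⟨m, by simp [δ, hm]; ring⟩)
    have he : heckeMatrix q 0 * (γ : GL (Fin 2) ℝ) = (δ : GL (Fin 2) ℝ) * heckeMatrix q 0 := by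
      refine Units.ext ?_
      rw [Units.val_mul, Units.val_mul, coe_GL_of_SL, coe_GL_of_SL, val_heckeMatrix hq.ne_zero]
      have hb' : ((γ 0 1 : ℤ) : ℝ) = (q : ℝ) * b := by exact_mod_cast hb
      ext i j
      fin_cases i <;> fin_cases j <;>
        simp [Matrix.mul_apply, Fin.sum_univ_two, δ, Matrix.map_apply]
      · rw [hb']; ring
      · ring
    simp only [g]
    rw [ModularForm.SL_slash, ← SlashAction.slash_mul, he, SlashAction.slash_mul,
      ← ModularForm.SL_slash, slash_eq_self F hδ]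
  have hinv : ∀ γ ∈ Gamma0 L, g ∣[(2 : ℤ)] γ = g := by
    intro γ hγ
    have key : ∀ γ ∈ Gamma0 L, ¬ (q : ℤ) ∣ γ 0 0 → g ∣[(2 : ℤ)] γ = g := by
      intro γ hγ ha
      have hqZ : Prime (q : ℤ) := Nat.prime_iff_prime_int.mp hq
      obtain ⟨u, v, huv⟩ : IsCoprime (γ 0 0) (q : ℤ) :=
        (hqZ.coprime_iff_not_dvd.mpr ha).symm
      have h1 : g ∣[(2 : ℤ)] (γ * ModularGroup.T ^ (-(u * γ 0 1))) = g := by
        refine hupper _ (Subgroup.mul_mem _ hγ ?_) ⟨γ 0 1 * v, ?_⟩
        · simp [Gamma0_mem, ModularGroup.coe_T_zpow]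
        · simp [ModularGroup.coe_T_zpow, Matrix.mul_apply, Fin.sum_univ_two]
          linear_combination (-(γ 0 1)) * huv
      rw [SlashAction.slash_mul] at h1
      have h2 := congrArg (fun f : ℍ → ℂ => f ∣[(2 : ℤ)] (ModularGroup.T ^ (u * γ 0 1))) h1
      simp only [← SlashAction.slash_mul, mul_assoc] at h2
      rw [← zpow_add, neg_add_cancel, zpow_zero, mul_one, hTz] at h2
      exact h2
    by_cases ha : (q : ℤ) ∣ γ 0 0
    · have hdet : γ 0 0 * γ 1 1 - γ 0 1 * γ 1 0 = 1 := by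
        rw [← Matrix.det_fin_two]; exact γ.2
      have hqZ : Prime (q : ℤ) := Nat.prime_iff_prime_int.mp hq
      have hc : ¬ (q : ℤ) ∣ γ 1 0 := fun hc => hqZ.not_dvd_one (hdet ▸ dvd_sub
        (ha.mul_right _) (hc.mul_left _))
      have h1 := key (ModularGroup.T * γ)
        (Subgroup.mul_mem _ (Gamma0_mem.mpr (by simp [ModularGroup.coe_T])) hγ) (by
          rw [Matrix.SpecialLinearGroup.coe_mul, ModularGroup.coe_T]
          simp [Matrix.mul_apply, Fin.sum_univ_two]
          exact fun h => hc ((dvd_add_right ha).mp h))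
      rwa [SlashAction.slash_mul, hgT] at h1
    · exact key γ hγ ha
  set h := CuspForm.heckeULin 2 (dvd_mul_left q L) F with hh
  have hfun : (⇑h : ℍ → ℂ) = (q : ℂ) • g := by
    rw [hh, CuspForm.coe_heckeULin_apply, heckeU, Finset.sum_congr rfl
      (g := fun _ => g) (fun j _ => ?_), Finset.sum_const, Finset.card_range, Nat.cast_smul_eq_nsmul]
    rw [← hTnat j]
    simp only [g]
    rw [ModularForm.SL_slash, ← SlashAction.slash_mul]
    congr 1
    refine Units.ext ?_
    rw [Units.val_mul, coe_GL_of_SL, val_heckeMatrix hq.ne_zero, val_heckeMatrix hq.ne_zero,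
      ← zpow_natCast, ModularGroup.coe_T_zpow]
    ext i k
    fin_cases i <;> fin_cases k <;> simp [Matrix.mul_apply, Fin.sum_univ_two, Matrix.map_apply]
  refine mem_coeffs.mpr ⟨(ModCurve.Forms.IsCF.toCuspForm (Γ := Gamma0 L) (k := 2) (f := ⇑h)
    ⟨⟨h.holo', fun γ hγ => by rw [hfun, ModularForm.SL_smul_slash, hinv γ hγ],
      fun γ => (CuspFormClass.zero_at_infty_slash h γ).isBoundedAtImInfty⟩,
      fun γ => CuspFormClass.zero_at_infty_slash h γ⟩), fun n => ?_⟩
  rw [ModCurve.Forms.IsCF.coe_toCuspForm, hh, DSLift.qCoeff_heckeULin hq.ne_zero, hF, uShift_apply]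

theorem tShift_mem (hq : q.Prime) (hqL : ¬ q ∣ L) {a : ℕ → ℂ} (ha : a ∈ coeffs L) :
    uShift q a + (q : ℂ) • vShift q a ∈ coeffs L := by
  obtain ⟨f, hf⟩ := mem_coeffs.mp ha
  refine mem_coeffs.mpr ⟨CuspForm.heckeTLin 2 hq hqL f, fun n => ?_⟩
  rw [DSLift.qCoeff_heckeTLin, Pi.add_apply, Pi.smul_apply, uShift_apply, vShift_apply, hf,
    smul_eq_mul, show (2 : ℤ) - 1 = 1 from rfl, zpow_one]
  split_ifs <;> simp [hf]

theorem vShift_uShift {d : ℕ} {a : ℕ → ℂ} (hsupp : ∀ n, ¬ d ∣ n → a n = 0) :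
    vShift d (uShift d a) = a := funext fun n => by
  rw [vShift_apply]
  split_ifs with hn
  · rw [uShift_apply, Nat.div_mul_cancel hn]
  · exact (hsupp n hn).symm

theorem uShift_vShift {d : ℕ} (hd : d ≠ 0) (a : ℕ → ℂ) : uShift d (vShift d a) = a :=
  funext fun n => by
    rw [uShift_apply, vShift_apply, if_pos (dvd_mul_left d n),
      Nat.mul_div_cancel _ (Nat.pos_of_ne_zero hd)]

/-- A form of level prime to `q` whose image under `V_q` has the same level is zero. -/
theorem eq_zero_of_vShift_mem [NeZero L] (hq : q.Prime) (hqL : ¬ q ∣ L) {a : ℕ → ℂ}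
    (ha : a ∈ coeffs L) (hva : vShift q a ∈ coeffs L) : a = 0 := by
  classical
  have hqC : (q : ℂ) ≠ 0 := Nat.cast_ne_zero.mpr hq.ne_zero
  let b : ℕ → ℕ → ℂ := fun k => (vShift q)^[k] a
  have hmem : ∀ k, b k ∈ coeffs L := by
    intro k
    induction k using Nat.strong_induction_on with
    | _ k ih =>
      match k with
      | 0 => exact ha
      | 1 => exact hva
      | k + 2 =>
        have h1 := tShift_mem hq hqL (ih (k + 1) (by omega))
        rw [show b (k + 1) = vShift q (b k) from Function.iterate_succ_apply' _ _ _,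
          uShift_vShift hq.ne_zero] at h1
        have h2 : vShift q (vShift q (b k)) ∈ coeffs L := by
          have := (Submodule.add_mem_iff_right _ (ih k (by omega))).mp h1
          exact (Submodule.smul_mem_iff _ hqC).mp this
        rw [show b (k + 2) = vShift q (vShift q (b k)) by
          simp only [b, Function.iterate_succ_apply']]
        exact h2
  by_contra hne
  obtain ⟨n, hn⟩ : ∃ n, a n ≠ 0 := Function.ne_iff.mp hne
  let n₀ := Nat.find (⟨n, hn⟩ : ∃ n, a n ≠ 0)
  have hn₀ : a n₀ ≠ 0 := Nat.find_spec (⟨n, hn⟩ : ∃ n, a n ≠ 0)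
  have hn₀pos : 0 < n₀ := Nat.pos_of_ne_zero fun h0 => hn₀ (h0 ▸ coeff_zero_of_mem ha)
  have hb : ∀ k m, b k m = if q ^ k ∣ m then a (m / q ^ k) else 0 := by
    intro k
    induction k with
    | zero => intro m; simp [b]
    | succ k ih =>
      intro m
      simp only [b, Function.iterate_succ_apply', vShift_apply]
      change (if q ∣ m then b k (m / q) else 0) = _
      by_cases hqm : q ∣ m
      · obtain ⟨r, rfl⟩ := hqm
        rw [if_pos (dvd_mul_right q r), ih, Nat.mul_div_cancel_left _ hq.pos, pow_succ']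
        simp only [Nat.mul_dvd_mul_iff_left hq.pos, Nat.mul_div_mul_left _ _ hq.pos]
      · rw [if_neg hqm, if_neg fun h => hqm ((dvd_pow_self q k.succ_ne_zero).trans h)]
  have hli : LinearIndependent ℂ fun k : ℕ => (⟨b k, hmem k⟩ : coeffs L) := by
    rw [linearIndependent_iff']
    intro s c hs k hk
    induction k using Nat.strong_induction_on with
    | _ k ih =>
      have h0 := congrFun (congrArg Subtype.val hs) (q ^ k * n₀)
      simp only [Submodule.coe_sum, Submodule.coe_smul, Finset.sum_apply, Pi.smul_apply,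
        smul_eq_mul, ZeroMemClass.coe_zero, Pi.zero_apply] at h0
      rw [Finset.sum_eq_single k (fun j hj hjk => ?_) (fun h => absurd hk h), hb,
        if_pos (dvd_mul_right _ _), Nat.mul_div_cancel_left _ (pow_pos hq.pos k)] at h0
      · exact (mul_eq_zero.mp h0).resolve_right hn₀
      rcases lt_or_gt_of_ne hjk with hlt | hgt
      · rw [ih j hlt hj, zero_mul]
      · rw [hb]
        split_ifs with hd
        · suffices hlt : q ^ k * n₀ / q ^ j < n₀ by
            rw [not_not.mp (Nat.find_min (⟨n, hn⟩ : ∃ n, a n ≠ 0) hlt), mul_zero]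
          rw [Nat.div_lt_iff_lt_mul (pow_pos hq.pos j), mul_comm n₀]
          exact Nat.mul_lt_mul_of_pos_right (Nat.pow_lt_pow_right hq.one_lt hgt) hn₀pos
        · rw [mul_zero]
  have := finite_coeffs L
  exact not_finite_iff_infinite.mpr inferInstance (LinearIndependent.finite hli)

/-- A form of level prime to `q` supported on multiples of `q` is zero. -/
theorem eq_zero_of_supported [NeZero L] (hq : q.Prime) (hqL : ¬ q ∣ L) {a : ℕ → ℂ}
    (ha : a ∈ coeffs L) (hsupp : ∀ n, ¬ q ∣ n → a n = 0) : a = 0 := by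
  have : NeZero (L * q) := ⟨mul_ne_zero (NeZero.ne L) hq.ne_zero⟩
  have hb := uShift_mem_of_supported hq hqL (coeffs_mono (dvd_mul_right L q) ha) hsupp
  have hb0 := eq_zero_of_vShift_mem hq hqL hb (by rwa [vShift_uShift hsupp])
  rw [← vShift_uShift hsupp, hb0, map_zero]

/-- **Old at `q` forces a root of `X² - a_q X + q`.** -/
theorem root_of_agree [NeZero L] (hq : q.Prime) (hqL : ¬ q ∣ L) {a b : ℕ → ℂ}
    (ha : a ∈ coeffs (L * q)) (hb : b ∈ coeffs L) {ε aq : ℂ} (hae : ∀ n, a (n * q) = ε * a n)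
    (hbe : uShift q b + (q : ℂ) • vShift q b = aq • b) (hag : ∀ n, ¬ q ∣ n → a n = b n)
    (hb1 : b 1 ≠ 0) : ε ^ 2 - aq * ε + q = 0 := by
  have : NeZero (L * q) := ⟨mul_ne_zero (NeZero.ne L) hq.ne_zero⟩
  let F : ℕ → ℂ := a - b - (ε - aq) • vShift q b
  have hF : F ∈ coeffs (L * q) := sub_mem (sub_mem ha (coeffs_mono (dvd_mul_right L q) hb))
    (Submodule.smul_mem _ _ (vShift_mem hq.ne_zero dvd_rfl hb))
  have hFs : ∀ n, ¬ q ∣ n → F n = 0 := fun n hn => by
    simp [F, vShift_apply, hn, hag n hn]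
  have hU : ∀ m, uShift q F m = ε * (a m - b m) + q * vShift q b m := fun m => by
    have h1 := congrFun hbe m
    simp only [Pi.add_apply, Pi.smul_apply, smul_eq_mul, uShift_apply] at h1
    simp only [F, uShift_apply, Pi.sub_apply, Pi.smul_apply, smul_eq_mul, hae,
      vShift_apply q b (m * q), if_pos (dvd_mul_left q m), Nat.mul_div_cancel _ hq.pos]
    linear_combination -h1
  have h0 : uShift q F = 0 :=
    eq_zero_of_supported hq hqL (uShift_mem_of_supported hq hqL hF hFs) fun m hm => by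
      rw [hU, hag m hm, vShift_apply, if_neg hm, sub_self, mul_zero, mul_zero, add_zero]
  have h1 := congrFun h0 q
  rw [hU, vShift_apply, if_pos dvd_rfl, Nat.div_self hq.pos, Pi.zero_apply] at h1
  have hq' := congrFun hbe 1
  simp only [Pi.add_apply, Pi.smul_apply, smul_eq_mul, uShift_apply, one_mul, vShift_apply,
    if_neg hq.not_dvd_one, mul_zero, add_zero] at hq'
  have haq := hae 1
  rw [one_mul, hag 1 hq.not_dvd_one] at haq
  have h2 : (ε ^ 2 - aq * ε + q) * b 1 = 0 := by rw [haq, hq'] at h1; linear_combination h1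
  exact (mul_eq_zero.mp h2).resolve_right hb1

end FermatAgent.RTLift.NewPart
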