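import Mathlib
import Fermat.Agent.RTLift.NewPart.Supported

/-!
Forms of level `L q²` killed by the trace to level `L q`: the property survives the depletion at
other primes. The cosets of `Γ₀(L q)` in `Γ₀(L)` and the sum over them.
-/

set_option autoImplicit false

noncomputable section

namespace FermatAgent.RTLift.NewPart

open CongruenceSubgroup ModularFormClass UpperHalfPlane ModularForm
open scoped MatrixGroups ModularForm

/-- The matrix `!![1, 0; e, 1]`. -/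
def lowerUni (e : ℤ) : SL(2, ℤ) := ⟨!![1, 0; e, 1], by simp [Matrix.det_fin_two_of]⟩

theorem coe_lowerUni (e : ℤ) :
    (lowerUni e : Matrix (Fin 2) (Fin 2) ℤ) = !![1, 0; e, 1] := rfl

theorem lowerUni_add (a b : ℤ) : lowerUni a * lowerUni b = lowerUni (a + b) := by
  refine Subtype.ext ?_
  rw [Matrix.SpecialLinearGroup.coe_mul, coe_lowerUni, coe_lowerUni, coe_lowerUni]
  ext i j
  fin_cases i <;> fin_cases j <;> simp [Matrix.mul_apply, Fin.sum_univ_two]

theorem lowerUni_zero : lowerUni 0 = 1 := by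
  ext i j
  fin_cases i <;> fin_cases j <;> simp [lowerUni]

theorem lowerUni_mem {L : ℕ} {e : ℤ} (h : (L : ℤ) ∣ e) : lowerUni e ∈ Gamma0 L :=
  Gamma0_mem.mpr (by simpa [lowerUni] using (ZMod.intCast_zmod_eq_zero_iff_dvd e L).mpr h)

/-- The trace from level `q M` to level `M` kills `f`, for all choices of representatives. -/
def TraceFree (q M : ℕ) (f : ℍ → ℂ) : Prop :=
  ∀ e : ℤ, (M : ℤ) ∣ e → ¬ ((q * q : ℕ) : ℤ) ∣ e →
    ∑ j ∈ Finset.range q, f ∣[(2 : ℤ)] lowerUni ((j : ℤ) * e) = 0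

theorem TraceFree.mono {q M M' : ℕ} {f : ℍ → ℂ} (h : TraceFree q M f) (hM : M ∣ M') :
    TraceFree q M' f :=
  fun e he he' => h e ((Int.natCast_dvd_natCast.mpr hM).trans he) he'

theorem TraceFree.sub {q M : ℕ} {f g : ℍ → ℂ} (hf : TraceFree q M f) (hg : TraceFree q M g) :
    TraceFree q M (f - g) := fun e he he' => by
  simp only [sub_eq_add_neg, SlashAction.add_slash, SlashAction.neg_slash, Finset.sum_add_distrib,
    Finset.sum_neg_distrib, hf e he he', hg e he he', neg_zero, add_zero]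

theorem TraceFree.smul {q M : ℕ} {f : ℍ → ℂ} (c : ℂ) (hf : TraceFree q M f) :
    TraceFree q M (c • f) := fun e he he' => by
  simp only [ModularForm.SL_smul_slash, ← Finset.smul_sum, hf e he he', smul_zero]

theorem not_dvd_div_mul {q r : ℕ} {e e' : ℤ} (he : e = (r : ℤ) * e')
    (he' : ¬ ((q * q : ℕ) : ℤ) ∣ e) : ¬ ((q * q : ℕ) : ℤ) ∣ e' :=
  fun h => he' (he ▸ h.mul_left _)

theorem heckeDiag_mul_lowerUni {r : ℕ} (hr : r ≠ 0) (e : ℤ) :
    heckeDiagMatrix r * (lowerUni ((r : ℤ) * e) : GL (Fin 2) ℝ) =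
      (lowerUni e : GL (Fin 2) ℝ) * heckeDiagMatrix r := by
  refine Units.ext ?_
  rw [Units.val_mul, Units.val_mul, coe_GL_of_SL, coe_GL_of_SL, val_heckeDiagMatrix hr]
  ext i j
  fin_cases i <;> fin_cases j <;>
    simp [Matrix.mul_apply, Fin.sum_univ_two, lowerUni, Matrix.map_apply, mul_comm]

theorem slash_diag_lowerUni {r : ℕ} (hr : r ≠ 0) (f : ℍ → ℂ) (e : ℤ) :
    (f ∣[(2 : ℤ)] heckeDiagMatrix r) ∣[(2 : ℤ)] lowerUni ((r : ℤ) * e) =
      (f ∣[(2 : ℤ)] lowerUni e) ∣[(2 : ℤ)] heckeDiagMatrix r := by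
  rw [ModularForm.SL_slash, ModularForm.SL_slash, ← SlashAction.slash_mul, ← SlashAction.slash_mul,
    heckeDiag_mul_lowerUni hr]

theorem TraceFree.slash_diag {q M r : ℕ} (hr : r ≠ 0) {f : ℍ → ℂ} (hf : TraceFree q M f) :
    TraceFree q (M * r) (f ∣[(2 : ℤ)] heckeDiagMatrix r) := fun e he he' => by
  obtain ⟨k, hk⟩ := he
  have hke : e = (r : ℤ) * ((M : ℤ) * k) := by rw [hk]; push_cast; ring
  simp only [hke, show ∀ j : ℕ, (j : ℤ) * ((r : ℤ) * ((M : ℤ) * k)) =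
    (r : ℤ) * ((j : ℤ) * ((M : ℤ) * k)) from fun j => by ring, slash_diag_lowerUni hr,
    ← SlashAction.sum_slash, hf _ (dvd_mul_right _ _) (not_dvd_div_mul hke he'),
    SlashAction.zero_slash]

theorem TraceFree.heckeU {q M r : ℕ} (hq : q.Prime) (hr : r.Prime) (hqr : r ≠ q) (hqM : q ∣ M)
    (f : CF (M * q)) (hf : TraceFree q M ⇑f) : TraceFree q (M * r) (heckeU 2 r ⇑f) := by
  intro e he he'
  have hre : ¬ ((q * q : ℕ) : ℤ) ∣ (r : ℤ) * e := fun h => he' <| by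
    refine IsCoprime.dvd_of_dvd_mul_left ?_ h
    rw [Int.isCoprime_iff_gcd_eq_one, Int.gcd, Int.natAbs_natCast, Int.natAbs_natCast]
    exact Nat.Coprime.mul_left ((Nat.coprime_primes hq hr).mpr hqr.symm)
      ((Nat.coprime_primes hq hr).mpr hqr.symm)
  obtain ⟨k, hk⟩ := he
  have hMe : (M : ℤ) ∣ (r : ℤ) * e := ⟨r * r * k, by rw [hk]; push_cast; ring⟩
  -- each term is a term for `r e`
  have hterm : ∀ (i : ℕ) (j : ℕ), (⇑f ∣[(2 : ℤ)] heckeMatrix r i) ∣[(2 : ℤ)] lowerUni ((j : ℤ) * e) =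
      (⇑f ∣[(2 : ℤ)] lowerUni ((j : ℤ) * ((r : ℤ) * e))) ∣[(2 : ℤ)] heckeMatrix r i := by
    intro i j
    set x : ℤ := (j : ℤ) * e with hx
    have hxr : x = (r : ℤ) * ((j : ℤ) * M * k) := by rw [hx, hk]; push_cast; ring
    let δ : SL(2, ℤ) := ⟨!![1 + i * x, -((i : ℤ) ^ 2) * ((j : ℤ) * M * k); r * x, 1 - i * x], by
      rw [Matrix.det_fin_two_of]; linear_combination (-(i : ℤ) ^ 2 * x) * hxr⟩
    have he1 : heckeMatrix r i * (lowerUni x : GL (Fin 2) ℝ) =
        (δ : GL (Fin 2) ℝ) * heckeMatrix r i := by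
      refine Units.ext ?_
      rw [Units.val_mul, Units.val_mul, coe_GL_of_SL, coe_GL_of_SL, val_heckeMatrix hr.ne_zero]
      have hxr' : (x : ℝ) = (r : ℝ) * ((j : ℝ) * M * k) := by exact_mod_cast hxr
      ext a b
      fin_cases a <;> fin_cases b <;>
        simp [Matrix.mul_apply, Fin.sum_univ_two, δ, lowerUni, Matrix.map_apply]
      · rw [hxr']; ring
      · ring
    have hδ : δ * lowerUni (-((r : ℤ) * x)) ∈ Gamma0 (M * q) := by
      refine Gamma0_mem.mpr ((ZMod.intCast_zmod_eq_zero_iff_dvd _ _).mpr ?_)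
      obtain ⟨m, hm⟩ : (q : ℤ) ∣ x := by
        refine Dvd.dvd.mul_left ?_ _
        exact hk ▸ ((Int.natCast_dvd_natCast.mpr hqM).trans ⟨(r : ℤ) * k, by push_cast; ring⟩)
      refine ⟨(i : ℤ) * r * m * ((r : ℤ) * ((j : ℤ) * k)), ?_⟩
      rw [Matrix.SpecialLinearGroup.coe_mul, coe_lowerUni,
        show (δ : Matrix (Fin 2) (Fin 2) ℤ) = !![1 + i * x,
          -((i : ℤ) ^ 2) * ((j : ℤ) * M * k); r * x, 1 - i * x] from rfl]
      simp [Matrix.mul_apply, Fin.sum_univ_two]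
      have : (x : ℤ) * x = (M : ℤ) * q * (m * ((r : ℤ) * ((j : ℤ) * k))) := by
        conv_lhs => arg 2; rw [hxr]
        rw [hm]; ring
      linear_combination ((i : ℤ) * r) * this
    rw [ModularForm.SL_slash, ← SlashAction.slash_mul, he1, SlashAction.slash_mul,
      ← ModularForm.SL_slash, show (j : ℤ) * ((r : ℤ) * e) = (r : ℤ) * x by rw [hx]; ring]
    congr 1
    conv_rhs => rw [← slash_eq_self f hδ]
    rw [← SlashAction.slash_mul, mul_assoc, lowerUni_add, neg_add_cancel, lowerUni_zero, mul_one]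
  simp only [ModularForm.heckeU, SlashAction.sum_slash, hterm]
  rw [Finset.sum_comm]
  simp only [← SlashAction.sum_slash, hf _ hMe hre, SlashAction.zero_slash, Finset.sum_const_zero]

/-- The depletion at `r` keeps the trace zero. -/
theorem traceFree_deplete {q M r : ℕ} (hq : q.Prime) (hr : r.Prime) (hqr : r ≠ q) (hqM : q ∣ M)
    [NeZero (M * r * r * q)] (y : CF (M * q)) (hy : TraceFree q M ⇑y) :
    ∃ y' : CF (M * r * r * q), (∀ n, qCoeff ⇑y' n = deplete r (fun n => qCoeff ⇑y n) n) ∧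
      TraceFree q (M * r * r) ⇑y' := by
  have h0 := NeZero.ne (M * r * r * q)
  have : NeZero (M * r * q) := ⟨by simp_all⟩
  have hrL : r ∣ M * r * q := (dvd_mul_left r M).mul_right q
  have h1 : M * q ∣ M * r * q := mul_dvd_mul_right (dvd_mul_right M r) q
  have h2 : M * q ∣ M * r * r * q :=
    mul_dvd_mul_right ((dvd_mul_right M r).trans (dvd_mul_right _ r)) q
  have h3 : M * r * q * r ∣ M * r * r * q := dvd_of_eq (by ring)
  set u := CuspForm.heckeULin 2 hrL (restr h1 y)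
  refine ⟨restr h2 y - vForm hr.ne_zero h3 u, fun n => ?_, ?_⟩
  · rw [← DSLift.qCoeffLin_apply, map_sub, DSLift.qCoeffLin_apply, DSLift.qCoeffLin_apply,
      qCoeff_vForm, coe_restr, DSLift.qCoeff_heckeULin hr.ne_zero hrL, coe_restr, deplete]
    split_ifs with hn
    · rw [Nat.div_mul_cancel hn, sub_self]
    · rw [sub_zero]
  · rw [FunLike.coe_sub, coe_restr]
    refine (hy.mono ((dvd_mul_right M r).trans (dvd_mul_right _ r))).sub ?_
    rw [vForm, FunLike.coe_smul, ModCurve.Forms.IsCF.coe_toCuspForm]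
    exact ((TraceFree.heckeU hq hr hqr hqM y hy).slash_diag hr.ne_zero).smul _

theorem slash_scalar_two {g : GL (Fin 2) ℝ} {c : ℝ} (hc : c ≠ 0)
    (hg : (g : Matrix (Fin 2) (Fin 2) ℝ) = !![c, 0; 0, c]) (f : ℍ → ℂ) : f ∣[(2 : ℤ)] g = f := by
  funext τ
  have hdet : g.det.val = c ^ 2 := by
    rw [Matrix.GeneralLinearGroup.val_det_apply, hg, Matrix.det_fin_two_of]; ring
  have hpos : 0 < g.det.val := hdet ▸ pow_two_pos_of_ne_zero hc
  have hden : denom g τ = c := by simp [denom, hg]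
  have hsmul : g • τ = τ := by
    ext
    rw [coe_smul_of_det_pos hpos, hden]
    simp [num, hg, hc]
  rw [ModularForm.slash_apply, hden, hsmul, hdet]
  have hc' : (c : ℂ) ≠ 0 := Complex.ofReal_ne_zero.mpr hc
  have hσ : σ g (f τ) = f τ := by
    rw [σ, if_pos hpos]; rfl
  rw [hσ, abs_of_nonneg (sq_nonneg c)]
  push_cast
  rw [zpow_one, zpow_neg, zpow_two]
  field_simp

section Trace

variable {L q : ℕ} {x z : ℤ} (hxz : x * q - z * L = 1)

/-- `!![x, z; L, q]`. -/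
def alUni : SL(2, ℤ) := ⟨!![x, z; L, q], by rw [Matrix.det_fin_two_of]; exact hxz⟩

theorem slash_lowerUni_periodic (_hq : q ≠ 0) (X : CF (L * q)) (j : ℕ) :
    ⇑X ∣[(2 : ℤ)] lowerUni ((L : ℤ) * (j % q : ℕ)) = ⇑X ∣[(2 : ℤ)] lowerUni ((L : ℤ) * j) := by
  conv_rhs => rw [← Nat.div_add_mod j q, show (L : ℤ) * ((q * (j / q) + j % q : ℕ) : ℤ) =
    ((L * q : ℕ) : ℤ) * (j / q : ℕ) + (L : ℤ) * (j % q : ℕ) by push_cast; ring, ← lowerUni_add,
    SlashAction.slash_mul, slash_eq_self X (lowerUni_mem (dvd_mul_right _ _))]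

/-- The sum over the cosets of `Γ₀(L q)` in `Γ₀(L)`. -/
def traceSum (X : ℍ → ℂ) : ℍ → ℂ :=
  X + ∑ i ∈ Finset.range q, X ∣[(2 : ℤ)] (alUni hxz * ModularGroup.T ^ i)

include hxz in
/-- The cosets other than that of `!![x, z; L, q]` are those of the `!![1, 0; L j, 1]`. -/
theorem traceSum_eq (hq : q.Prime) (X : CF (L * q)) :
    traceSum hxz ⇑X = (∑ j ∈ Finset.range q, ⇑X ∣[(2 : ℤ)] lowerUni ((L : ℤ) * j)) +
      ⇑X ∣[(2 : ℤ)] alUni hxz := by
  have := Fact.mk hq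
  have hL : (L : ZMod q) ≠ 0 := fun h => by
    have := congrArg (Int.cast : ℤ → ZMod q) hxz
    push_cast at this
    rw [h, ZMod.natCast_self, mul_zero, mul_zero, sub_zero] at this
    exact zero_ne_one this
  have hterm : ∀ i ∈ (Finset.range q).erase 0,
      ⇑X ∣[(2 : ℤ)] (alUni hxz * ModularGroup.T ^ i) =
        ⇑X ∣[(2 : ℤ)] lowerUni ((L : ℤ) * (((L : ZMod q) * i)⁻¹).val) := by
    intro i hi
    obtain ⟨hi0, hiq⟩ : i ≠ 0 ∧ i < q := by simpa using hi
    have hi' : (i : ZMod q) ≠ 0 := fun h =>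
      hi0 (Nat.eq_zero_of_dvd_of_lt ((ZMod.natCast_eq_zero_iff i q).mp h) hiq)
    set j := (((L : ZMod q) * i)⁻¹).val
    obtain ⟨m, hm⟩ : (q : ℤ) ∣ 1 - (j : ℤ) * ((L : ℤ) * i + q) := by
      rw [← ZMod.intCast_zmod_eq_zero_iff_dvd]
      push_cast
      rw [ZMod.natCast_self, add_zero, sub_eq_zero, show ((j : ℕ) : ZMod q) = ((L : ZMod q) * i)⁻¹ from
        ZMod.natCast_zmod_val _, inv_mul_cancel₀ (mul_ne_zero hL hi')]
    have hmem : alUni hxz * ModularGroup.T ^ i * lowerUni (-((L : ℤ) * j)) ∈ Gamma0 (L * q) := by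
      refine Gamma0_mem.mpr ((ZMod.intCast_zmod_eq_zero_iff_dvd _ _).mpr ⟨m, ?_⟩)
      rw [← zpow_natCast, Matrix.SpecialLinearGroup.coe_mul, Matrix.SpecialLinearGroup.coe_mul,
        ModularGroup.coe_T_zpow]
      rw [coe_lowerUni, show (alUni hxz : Matrix (Fin 2) (Fin 2) ℤ) = !![x, z; L, q] from rfl]
      simp [Matrix.mul_apply, Fin.sum_univ_two]
      linear_combination (L : ℤ) * hm
    conv_rhs => rw [← slash_eq_self X hmem]
    rw [← SlashAction.slash_mul, mul_assoc, lowerUni_add, neg_add_cancel, lowerUni_zero, mul_one]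
  have h0 : (0 : ℕ) ∈ Finset.range q := Finset.mem_range.mpr hq.pos
  rw [traceSum, ← Finset.add_sum_erase _ _ h0, ← Finset.add_sum_erase _ _ h0, pow_zero, mul_one,
    Nat.cast_zero, mul_zero, lowerUni_zero, SlashAction.slash_one, Finset.sum_congr rfl hterm]
  have hperm : ∑ i ∈ (Finset.range q).erase 0,
      ⇑X ∣[(2 : ℤ)] lowerUni ((L : ℤ) * (((L : ZMod q) * i)⁻¹).val) =
      ∑ j ∈ (Finset.range q).erase 0, ⇑X ∣[(2 : ℤ)] lowerUni ((L : ℤ) * j) := by
    have hmem : ∀ a ∈ (Finset.range q).erase 0,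
        (((L : ZMod q) * a)⁻¹).val ∈ (Finset.range q).erase 0 := by
      intro a ha
      obtain ⟨ha0, haq⟩ : a ≠ 0 ∧ a < q := by simpa using ha
      have ha' : (a : ZMod q) ≠ 0 := fun h =>
        ha0 (Nat.eq_zero_of_dvd_of_lt ((ZMod.natCast_eq_zero_iff a q).mp h) haq)
      simp [ZMod.val_lt, ha', hL]
    have hinv : ∀ a ∈ (Finset.range q).erase 0,
        (((L : ZMod q) * ((((L : ZMod q) * a)⁻¹).val : ℕ))⁻¹).val = a := by
      intro a ha
      obtain ⟨ha0, haq⟩ : a ≠ 0 ∧ a < q := by simpa using ha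
      have ha' : (a : ZMod q) ≠ 0 := fun h =>
        ha0 (Nat.eq_zero_of_dvd_of_lt ((ZMod.natCast_eq_zero_iff a q).mp h) haq)
      rw [ZMod.natCast_zmod_val, show ((L : ZMod q) * ((L : ZMod q) * a)⁻¹)⁻¹ = (a : ZMod q) by
        field_simp, ZMod.val_natCast, Nat.mod_eq_of_lt haq]
    exact Finset.sum_nbij' (fun a => (((L : ZMod q) * a)⁻¹).val)
      (fun a => (((L : ZMod q) * a)⁻¹).val) hmem hmem hinv hinv (fun _ _ => rfl)
  rw [hperm]
  abel

end Trace

end FermatAgent.RTLift.NewPart
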