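import Mathlib
import Fermat.Agent.RTLift.NewPart.TraceFree

/-!
A form of level `L q²` killed by the trace to level `L q` is not the `q`-depletion of an eigenform
of level `L` or `L q` (`q ∤ L`).
-/

set_option autoImplicit false

noncomputable section

namespace FermatAgent.RTLift.NewPart

open CongruenceSubgroup ModularFormClass UpperHalfPlane ModularForm
open scoped MatrixGroups ModularForm

variable {L q : ℕ} {x z : ℤ} (hxz : x * q - z * L = 1)

theorem eq_of_qCoeff [NeZero L] {f g : CF L} (h : ∀ n, qCoeff ⇑f n = qCoeff ⇑g n) : f = g := by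
  refine sub_eq_zero.mp (DSLift.eq_zero_of_qCoeff_eq_zero fun n => ?_)
  rw [← DSLift.qCoeffLin_apply, map_sub, DSLift.qCoeffLin_apply, DSLift.qCoeffLin_apply, h, sub_self]

theorem not_dvd_level (hq : q.Prime) (hqL : ¬ q ∣ L) :
    ¬ ((q * q : ℕ) : ℤ) ∣ ((L * q : ℕ) : ℤ) := fun h =>
  hqL ((Nat.mul_dvd_mul_iff_right hq.pos).mp (Int.natCast_dvd_natCast.mp h))

theorem sum_slash_restr (X : CF (L * q)) :
    ∑ j ∈ Finset.range q, ⇑X ∣[(2 : ℤ)] lowerUni ((j : ℤ) * ((L * q : ℕ) : ℤ)) = (q : ℂ) • ⇑X := by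
  rw [Finset.sum_congr rfl fun j _ => slash_eq_self X (lowerUni_mem (dvd_mul_left _ _)),
    Finset.sum_const, Finset.card_range, Nat.cast_smul_eq_nsmul]

include hxz in
theorem sum_slash_diag (hq : q.Prime) (X : CF (L * q)) :
    ∑ j ∈ Finset.range q, (⇑X ∣[(2 : ℤ)] heckeDiagMatrix q) ∣[(2 : ℤ)]
        lowerUni ((j : ℤ) * ((L * q : ℕ) : ℤ)) =
      (traceSum hxz ⇑X - ⇑X ∣[(2 : ℤ)] alUni hxz) ∣[(2 : ℤ)] heckeDiagMatrix q := by
  rw [traceSum_eq hxz hq, add_sub_cancel_right, SlashAction.sum_slash]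
  refine Finset.sum_congr rfl fun j _ => ?_
  rw [← slash_diag_lowerUni hq.ne_zero]
  congr 2
  push_cast
  ring

/-- `U_q` after `τ ↦ q τ`. -/
theorem sum_diag_heckeMatrix (hq : q ≠ 0) (f : ℍ → ℂ) :
    ∑ i ∈ Finset.range q, (f ∣[(2 : ℤ)] heckeDiagMatrix q) ∣[(2 : ℤ)] heckeMatrix q i =
      ∑ i ∈ Finset.range q, f ∣[(2 : ℤ)] (ModularGroup.T ^ i) := by
  refine Finset.sum_congr rfl fun i _ => ?_
  let c : GL (Fin 2) ℝ := Matrix.GeneralLinearGroup.mkOfDetNeZero !![(q : ℝ), 0; 0, q]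
    (by simp [Matrix.det_fin_two_of, hq])
  have he : heckeDiagMatrix q * heckeMatrix q i =
      c * ((ModularGroup.T ^ i : SL(2, ℤ)) : GL (Fin 2) ℝ) := by
    refine Units.ext ?_
    rw [Units.val_mul, Units.val_mul, coe_GL_of_SL, val_heckeDiagMatrix hq, val_heckeMatrix hq,
      ← zpow_natCast, ModularGroup.coe_T_zpow]
    ext a b
    fin_cases a <;> fin_cases b <;> simp [c, Matrix.mul_apply, Fin.sum_univ_two, Matrix.map_apply]
  rw [← SlashAction.slash_mul, he, SlashAction.slash_mul,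
    slash_scalar_two (g := c) (Nat.cast_ne_zero.mpr hq) rfl, ModularForm.SL_slash]

theorem sum_range_shift {A : Type*} [AddCommMonoid A] (F : ℕ → A) (n : ℕ) (h : F n = F 0) :
    ∑ i ∈ Finset.range n, F (i + 1) = ∑ i ∈ Finset.range n, F i := by
  cases n with
  | zero => simp
  | succ m => rw [Finset.sum_range_succ, h, Finset.sum_range_succ']

theorem slash_eq_of_conj_mem (X : CF (L * q)) {a γ : SL(2, ℤ)}
    (h : a * γ * a⁻¹ ∈ Gamma0 (L * q)) : (⇑X ∣[(2 : ℤ)] a) ∣[(2 : ℤ)] γ = ⇑X ∣[(2 : ℤ)] a := by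
  conv_rhs => rw [← slash_eq_self X h]
  rw [← SlashAction.slash_mul, ← SlashAction.slash_mul, inv_mul_cancel_right]

theorem coe_alUni : (alUni hxz : Matrix (Fin 2) (Fin 2) ℤ) = !![x, z; L, q] := rfl

include hxz in
theorem traceSum_slash_T (_hq : q.Prime) (X : CF (L * q)) :
    traceSum hxz ⇑X ∣[(2 : ℤ)] ModularGroup.T = traceSum hxz ⇑X := by
  rw [traceSum, SlashAction.add_slash, SlashAction.sum_slash,
    slash_eq_self X (Gamma0_mem.mpr (by simp [ModularGroup.coe_T]))]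
  simp only [← SlashAction.slash_mul, mul_assoc, ← pow_succ]
  refine congrArg (⇑X + ·) ?_
  refine sum_range_shift (fun i => ⇑X ∣[(2 : ℤ)] (alUni hxz * ModularGroup.T ^ i)) q ?_
  simp only [pow_zero, mul_one]
  rw [SlashAction.slash_mul]
  refine slash_eq_of_conj_mem X (Gamma0_mem.mpr ((ZMod.intCast_zmod_eq_zero_iff_dvd _ _).mpr
    ⟨-(L : ℤ), ?_⟩))
  rw [← zpow_natCast, Matrix.SpecialLinearGroup.coe_mul, Matrix.SpecialLinearGroup.coe_mul,
    Matrix.SpecialLinearGroup.coe_inv, coe_alUni, ModularGroup.coe_T_zpow, Matrix.adjugate_fin_two_of]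
  simp [Matrix.mul_apply, Fin.sum_univ_two]
  ring

include hxz in
theorem traceSum_slash_lower (hq : q.Prime) (X : CF (L * q)) :
    traceSum hxz ⇑X ∣[(2 : ℤ)] lowerUni (L : ℤ) = traceSum hxz ⇑X := by
  rw [traceSum_eq hxz hq, SlashAction.add_slash, SlashAction.sum_slash]
  simp only [← SlashAction.slash_mul, lowerUni_add]
  congr 1
  · rw [Finset.sum_congr rfl fun (j : ℕ) _ => show
      ⇑X ∣[(2 : ℤ)] lowerUni ((L : ℤ) * j + L) = ⇑X ∣[(2 : ℤ)] lowerUni ((L : ℤ) * ((j + 1 : ℕ) : ℤ)) by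
        push_cast; ring_nf]
    refine sum_range_shift (fun j => ⇑X ∣[(2 : ℤ)] lowerUni ((L : ℤ) * (j : ℤ))) q ?_
    rw [← slash_lowerUni_periodic hq.ne_zero X q, Nat.mod_self]
  · rw [SlashAction.slash_mul]
    refine slash_eq_of_conj_mem X (Gamma0_mem.mpr ((ZMod.intCast_zmod_eq_zero_iff_dvd _ _).mpr
      ⟨(q : ℤ), ?_⟩))
    rw [Matrix.SpecialLinearGroup.coe_mul, Matrix.SpecialLinearGroup.coe_mul,
      Matrix.SpecialLinearGroup.coe_inv, coe_alUni, coe_lowerUni, Matrix.adjugate_fin_two_of]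
    simp [Matrix.mul_apply, Fin.sum_univ_two]
    ring

/-- A form of level `L q` invariant under `!![1, 0; L, 1]` has level `L`. -/
theorem mem_coeffs_of_slash_lower [NeZero L] (hq : q.Prime) (G : CF (L * q))
    (h : ⇑G ∣[(2 : ℤ)] lowerUni (L : ℤ) = ⇑G) : (fun n => qCoeff ⇑G n) ∈ coeffs L := by
  have : NeZero (L * q) := ⟨mul_ne_zero (NeZero.ne L) hq.ne_zero⟩
  have hnat : ∀ j : ℕ, ⇑G ∣[(2 : ℤ)] lowerUni ((L : ℤ) * j) = ⇑G := fun j => by
    induction j with
    | zero => rw [Nat.cast_zero, mul_zero, lowerUni_zero, SlashAction.slash_one]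
    | succ j ih =>
      rw [Nat.cast_succ, mul_add, mul_one, ← lowerUni_add, SlashAction.slash_mul, ih, h]
  have hqZ : Prime (q : ℤ) := Nat.prime_iff_prime_int.mp hq
  have key : ∀ γ ∈ Gamma0 L, ¬ (q : ℤ) ∣ γ 1 1 → ⇑G ∣[(2 : ℤ)] γ = ⇑G := by
    intro γ hγ hd
    obtain ⟨m, hm⟩ := (ZMod.intCast_zmod_eq_zero_iff_dvd _ _).mp (Gamma0_mem.mp hγ)
    obtain ⟨u, v, huv⟩ : IsCoprime (γ 1 1) (q : ℤ) := (hqZ.coprime_iff_not_dvd.mpr hd).symm
    set i : ℕ := (-(m * u) % (q : ℤ)).toNat with hi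
    have hi' : (i : ℤ) = -(m * u) % (q : ℤ) :=
      Int.toNat_of_nonneg (Int.emod_nonneg _ (Int.natCast_ne_zero.mpr hq.ne_zero))
    have hmem : γ * lowerUni ((L : ℤ) * i) ∈ Gamma0 (L * q) := by
      refine Gamma0_mem.mpr ((ZMod.intCast_zmod_eq_zero_iff_dvd _ _).mpr
        ⟨m * v - γ 1 1 * (-(m * u) / (q : ℤ)), ?_⟩)
      rw [Matrix.SpecialLinearGroup.coe_mul, coe_lowerUni, hi', Int.emod_def]
      simp [Matrix.mul_apply, Fin.sum_univ_two, hm]
      linear_combination (-((L : ℤ) * m)) * huv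
    have h1 := slash_eq_self G hmem
    rw [SlashAction.slash_mul] at h1
    have h2 := congrArg (fun F : ℍ → ℂ => F ∣[(2 : ℤ)] lowerUni (-((L : ℤ) * i))) h1
    simp only [← SlashAction.slash_mul, lowerUni_add, add_neg_cancel, mul_assoc, lowerUni_zero,
      mul_one] at h2
    rw [h2]
    conv_lhs => rw [← hnat i]
    rw [← SlashAction.slash_mul, lowerUni_add, add_neg_cancel, lowerUni_zero, SlashAction.slash_one]
  have hinv : ∀ γ ∈ Gamma0 L, ⇑G ∣[(2 : ℤ)] γ = ⇑G := by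
    intro γ hγ
    by_cases hd : (q : ℤ) ∣ γ 1 1
    · have hdet : γ 0 0 * γ 1 1 - γ 0 1 * γ 1 0 = 1 := by
        rw [← Matrix.det_fin_two]; exact γ.2
      have hc : ¬ (q : ℤ) ∣ γ 1 0 := fun hc => hqZ.not_dvd_one (hdet ▸ dvd_sub
        (hd.mul_left _) (hc.mul_left _))
      have hT : ∀ M : ℕ, ModularGroup.T ∈ Gamma0 M := fun M =>
        Gamma0_mem.mpr (by simp [ModularGroup.coe_T])
      have h1 := key (γ * ModularGroup.T) (Subgroup.mul_mem _ hγ (hT L)) (by
        rw [Matrix.SpecialLinearGroup.coe_mul, ModularGroup.coe_T]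
        simp [Matrix.mul_apply, Fin.sum_univ_two]
        exact fun h' => hc ((dvd_add_left hd).mp h'))
      rw [SlashAction.slash_mul] at h1
      have h2 := congrArg (fun F : ℍ → ℂ => F ∣[(2 : ℤ)] ModularGroup.T⁻¹) h1
      simp only [← SlashAction.slash_mul, mul_assoc, mul_inv_cancel, mul_one] at h2
      rw [h2, slash_eq_self G (Subgroup.inv_mem _ (hT _))]
    · exact key γ hγ hd
  exact mem_coeffs.mpr ⟨ModCurve.Forms.IsCF.toCuspForm (Γ := Gamma0 L) (k := 2) (f := ⇑G)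
    ⟨⟨G.holo', hinv, fun γ => (CuspFormClass.zero_at_infty_slash G γ).isBoundedAtImInfty⟩,
      fun γ => CuspFormClass.zero_at_infty_slash G γ⟩, fun n => rfl⟩

theorem exists_bezout (hq : q.Prime) (hqL : ¬ q ∣ L) : ∃ x z : ℤ, x * q - z * L = 1 := by
  obtain ⟨x, z, h⟩ : IsCoprime (q : ℤ) (L : ℤ) := by
    rw [Int.isCoprime_iff_gcd_eq_one, Int.gcd, Int.natAbs_natCast, Int.natAbs_natCast]
    exact hq.coprime_iff_not_dvd.mpr hqL
  exact ⟨x, -z, by linear_combination h⟩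

/-- **Not old from level `L q`.** -/
theorem eq_zero_of_traceFree_of_levelQ [NeZero L] (hq : q.Prime) (hqL : ¬ q ∣ L) (G : CF (L * q))
    {ε : ℂ} (hUG : ∀ n, qCoeff ⇑G (n * q) = ε * qCoeff ⇑G n) (y : CF (L * q * q))
    (hy : TraceFree q (L * q) ⇑y) (hyG : ∀ n, qCoeff ⇑y n = deplete q (fun n => qCoeff ⇑G n) n) :
    G = 0 := by
  obtain ⟨x, z, hxz⟩ := exists_bezout hq hqL
  have : NeZero (L * q) := ⟨mul_ne_zero (NeZero.ne L) hq.ne_zero⟩
  have : NeZero (L * q * q) := ⟨mul_ne_zero (NeZero.ne _) hq.ne_zero⟩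
  have hqC : (q : ℂ) ≠ 0 := Nat.cast_ne_zero.mpr hq.ne_zero
  have hU : ∑ i ∈ Finset.range q, ⇑G ∣[(2 : ℤ)] heckeMatrix q i = ε • ⇑G := by
    have h1 : CuspForm.heckeULin 2 (dvd_mul_left q L) G = ε • G := eq_of_qCoeff fun n => by
      rw [DSLift.qCoeff_heckeULin hq.ne_zero, hUG, DSLift.qCoeff_smul']
    have h2 := congrArg (fun f : CF (L * q) => ⇑f) h1
    simpa [ModularForm.heckeU] using h2
  have hyeq : ⇑y = ⇑G - (ε * (q : ℂ)⁻¹) • (⇑G ∣[(2 : ℤ)] heckeDiagMatrix q) := by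
    have h1 : y = restr (dvd_mul_right _ q) G - ε • vForm hq.ne_zero dvd_rfl G :=
      eq_of_qCoeff fun n => by
        rw [hyG, ← DSLift.qCoeffLin_apply _ n, map_sub, map_smul, DSLift.qCoeffLin_apply,
          DSLift.qCoeffLin_apply, coe_restr, qCoeff_vForm, deplete, smul_eq_mul]
        split_ifs with hn
        · obtain ⟨m, rfl⟩ := hn
          rw [Nat.mul_div_cancel_left _ hq.pos, mul_comm q m, hUG, sub_self]
        · rw [mul_zero, sub_zero]
    rw [h1, vForm, smul_smul]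
    rfl
  set TG := traceSum hxz ⇑G
  set H := ⇑G ∣[(2 : ℤ)] alUni hxz
  have h0 := hy _ dvd_rfl (not_dvd_level hq hqL)
  simp only [hyeq, sub_eq_add_neg, ← _root_.neg_smul, SlashAction.add_slash, ModularForm.SL_smul_slash,
    Finset.sum_add_distrib, ← Finset.smul_sum, sum_slash_restr, sum_slash_diag hxz hq] at h0
  rcases eq_or_ne ε 0 with rfl | hε
  · simp [hqC] at h0
    exact DFunLike.coe_injective (by rw [h0]; try rfl)
  -- apply `U_q`
  have h1 := congrArg (fun f : ℍ → ℂ => ∑ i ∈ Finset.range q, f ∣[(2 : ℤ)] heckeMatrix q i) h0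
  simp only [SlashAction.add_slash, Finset.sum_add_distrib, SlashAction.zero_slash,
    Finset.sum_const_zero] at h1
  have hs : ∀ (c : ℂ) (f : ℍ → ℂ), ∑ i ∈ Finset.range q, (c • f) ∣[(2 : ℤ)] heckeMatrix q i =
      c • ∑ i ∈ Finset.range q, f ∣[(2 : ℤ)] heckeMatrix q i := fun c f => by
    rw [Finset.smul_sum]
    exact Finset.sum_congr rfl fun i _ => by
      rw [ModularForm.smul_slash, σ_heckeMatrix]; rfl
  rw [hs, hs, hU] at h1
  simp only [SlashAction.add_slash, Finset.sum_add_distrib, sum_diag_heckeMatrix hq.ne_zero] at h1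
  have hTT : ∀ i : ℕ, TG ∣[(2 : ℤ)] (ModularGroup.T ^ i) = TG := fun i => by
    induction i with
    | zero => rw [pow_zero, SlashAction.slash_one]
    | succ i ih => rw [pow_succ, SlashAction.slash_mul, ih, traceSum_slash_T hxz hq]
  have hH : ∑ i ∈ Finset.range q, H ∣[(2 : ℤ)] (ModularGroup.T ^ i) = TG - ⇑G := by
    simp only [TG, traceSum, H, ← SlashAction.slash_mul, add_sub_cancel_left]
  rw [show traceSum hxz ⇑G = TG from rfl, show ⇑G ∣[(2 : ℤ)] alUni hxz = H from rfl] at h1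
  simp only [SlashAction.neg_slash,
    Finset.sum_neg_distrib, hTT, hH, Finset.sum_const, Finset.card_range, ← Nat.cast_smul_eq_nsmul ℂ,
    ← sub_eq_add_neg] at h1
  have hq1 : (q : ℂ) - 1 ≠ 0 := sub_ne_zero.mpr (by exact_mod_cast hq.ne_one)
  have hTG : TG = ((q : ℂ) + 1) • ⇑G := funext fun τ => by
    have h2 := congrFun h1 τ
    simp only [Pi.add_apply, Pi.smul_apply, Pi.sub_apply, smul_eq_mul, Pi.zero_apply] at h2
    rw [Pi.smul_apply, smul_eq_mul]
    field_simp at h2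
    refine mul_left_cancel₀ (mul_ne_zero hε hq1) ?_
    linear_combination -h2
  have hq2 : (q : ℂ) + 1 ≠ 0 := by exact_mod_cast Nat.succ_ne_zero q
  have hlow : ⇑G ∣[(2 : ℤ)] lowerUni (L : ℤ) = ⇑G := by
    have h3 := traceSum_slash_lower hxz hq G
    rw [show traceSum hxz ⇑G = TG from rfl, hTG, ModularForm.SL_smul_slash] at h3
    exact smul_right_injective _ hq2 h3
  have hb := mem_coeffs_of_slash_lower hq G hlow
  have hv : vShift q (fun n => qCoeff ⇑G n) ∈ coeffs L := by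
    have h3 := tShift_mem hq hqL hb
    rw [show uShift q (fun n => qCoeff ⇑G n) = ε • fun n => qCoeff ⇑G n from
      funext fun n => hUG n, Submodule.add_mem_iff_right _ (Submodule.smul_mem _ ε hb)] at h3
    exact (Submodule.smul_mem_iff _ hqC).mp h3
  exact eq_of_qCoeff fun n => by
    rw [congrFun (eq_zero_of_vShift_mem hq hqL hb hv) n, ← DSLift.qCoeffLin_apply, map_zero]
    rfl

/-- **Not old from level `L`.** -/
theorem eq_zero_of_traceFree_of_levelPrime [NeZero L] (hq : q.Prime) (hqL : ¬ q ∣ L) (G : CF L)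
    {a : ℂ} (hTG : ∀ n, qCoeff ⇑G (n * q) + (q : ℂ) * (if q ∣ n then qCoeff ⇑G (n / q) else 0) =
      a * qCoeff ⇑G n) (y : CF (L * q * q))
    (hy : TraceFree q (L * q) ⇑y) (hyG : ∀ n, qCoeff ⇑y n = deplete q (fun n => qCoeff ⇑G n) n) :
    qCoeff ⇑G 1 = 0 := by
  obtain ⟨x, z, hxz⟩ := exists_bezout hq hqL
  have : NeZero (L * q) := ⟨mul_ne_zero (NeZero.ne L) hq.ne_zero⟩
  have : NeZero (L * q * q) := ⟨mul_ne_zero (NeZero.ne _) hq.ne_zero⟩
  have hqC : (q : ℂ) ≠ 0 := Nat.cast_ne_zero.mpr hq.ne_zero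
  have hT : heckeT (2 : ℤ) q ⇑G = a • ⇑G := by
    have h1 : CuspForm.heckeTLin 2 hq hqL G = a • G := eq_of_qCoeff fun n => by
      rw [DSLift.qCoeff_heckeTLin, DSLift.qCoeff_smul', ← hTG,
        show (2 : ℤ) - 1 = 1 from rfl, zpow_one]
      split_ifs <;> simp
    exact congrArg (fun f : CF L => ⇑f) h1
  set VG : CF (L * q) := vForm hq.ne_zero dvd_rfl G with hVG
  have hVGfun : ⇑VG = (q : ℂ)⁻¹ • (⇑G ∣[(2 : ℤ)] heckeDiagMatrix q) := rfl
  set Y : CF (L * q) := restr (dvd_mul_right L q) G - a • VG with hY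
  have hyeq : y = restr (dvd_mul_right _ q) Y + (q : ℂ) • vForm hq.ne_zero dvd_rfl VG :=
    eq_of_qCoeff fun n => by
      rw [hyG, ← DSLift.qCoeffLin_apply _ n, map_add, map_smul, DSLift.qCoeffLin_apply,
        DSLift.qCoeffLin_apply, coe_restr, qCoeff_vForm, hY, ← DSLift.qCoeffLin_apply _ n, map_sub,
        map_smul, DSLift.qCoeffLin_apply, DSLift.qCoeffLin_apply, coe_restr, deplete, smul_eq_mul,
        smul_eq_mul, hVG, qCoeff_vForm, qCoeff_vForm]
      split_ifs with hn hn' <;> first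
        | (obtain ⟨m, rfl⟩ := hn
           rw [Nat.mul_div_cancel_left _ hq.pos] at *
           have := hTG m
           rw [mul_comm m q] at this
           first | (rw [if_pos hn'] at this; linear_combination -this)
                 | (rw [if_neg hn'] at this; linear_combination -this))
        | simp
  have hswap : (⇑VG ∣[(2 : ℤ)] alUni hxz) ∣[(2 : ℤ)] heckeDiagMatrix q = (q : ℂ)⁻¹ • ⇑G := by
    let δ : SL(2, ℤ) := ⟨!![q * x, z; L, 1], by
      rw [Matrix.det_fin_two_of]; linear_combination hxz⟩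
    let c : GL (Fin 2) ℝ := Matrix.GeneralLinearGroup.mkOfDetNeZero !![(q : ℝ), 0; 0, q]
      (by simp [Matrix.det_fin_two_of, hq.ne_zero])
    have he : heckeDiagMatrix q * (alUni hxz : GL (Fin 2) ℝ) * heckeDiagMatrix q =
        c * (δ : GL (Fin 2) ℝ) := by
      refine Units.ext ?_
      rw [Units.val_mul, Units.val_mul, Units.val_mul, coe_GL_of_SL, coe_GL_of_SL,
        val_heckeDiagMatrix hq.ne_zero, coe_alUni]
      ext i j
      fin_cases i <;> fin_cases j <;>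
        simp [c, δ, Matrix.mul_apply, Matrix.vecMul, dotProduct, Fin.sum_univ_two, Matrix.map_apply] <;> ring
    rw [hVGfun, ModularForm.SL_smul_slash, ModularForm.smul_slash, σ_heckeDiagMatrix,
      ModularForm.SL_slash, ← SlashAction.slash_mul, ← SlashAction.slash_mul, ← mul_assoc, he,
      SlashAction.slash_mul, slash_scalar_two (g := c) (Nat.cast_ne_zero.mpr hq.ne_zero) rfl,
      ← ModularForm.SL_slash, slash_eq_self G (Gamma0_mem.mpr (by simp [δ]))]
    rfl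
  have hTV : traceSum hxz ⇑VG = ((q : ℂ)⁻¹ * a) • ⇑G := by
    have h1 := sum_diag_heckeMatrix hq.ne_zero (⇑VG ∣[(2 : ℤ)] alUni hxz)
    rw [hswap] at h1
    simp only [← SlashAction.slash_mul] at h1
    rw [traceSum, ← h1, mul_smul, ← hT, heckeT_eq_heckeU_add, smul_add, add_comm, hVGfun]
    congr 1
    simp only [ModularForm.heckeU, Finset.smul_sum]
    exact Finset.sum_congr rfl fun i _ => by rw [ModularForm.smul_slash, σ_heckeMatrix]; rfl
  have h0 := hy _ dvd_rfl (not_dvd_level hq hqL)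
  have hyfun : ⇑y = ⇑Y + (⇑VG ∣[(2 : ℤ)] heckeDiagMatrix q) := by
    rw [hyeq, vForm, smul_smul, mul_inv_cancel₀ hqC, one_smul]
    rfl
  simp only [hyfun, SlashAction.add_slash, Finset.sum_add_distrib, sum_slash_restr,
    sum_slash_diag hxz hq] at h0
  rw [sub_eq_add_neg, SlashAction.add_slash, SlashAction.neg_slash, hswap, hTV,
    ModularForm.smul_slash, σ_heckeDiagMatrix] at h0
  -- read the coefficient at `1`
  have h2 : (q : ℂ) • Y + a • VG - (q : ℂ)⁻¹ • restr (dvd_mul_right L q) G = 0 := by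
    refine DFunLike.coe_injective ?_
    funext τ
    have h3 := congrFun h0 τ
    simp only [Pi.add_apply, Pi.smul_apply, Pi.neg_apply, Pi.zero_apply] at h3
    simp only [hVGfun, FunLike.coe_sub, FunLike.coe_add, FunLike.coe_smul,
      FunLike.coe_zero, Pi.sub_apply, Pi.add_apply, Pi.smul_apply, Pi.zero_apply, coe_restr,
      smul_eq_mul] at h3 ⊢
    simp only [ContinuousAlgEquiv.refl_apply] at h3
    linear_combination h3
  have h3 := congrArg (DSLift.qCoeffLin (L * q) 2 1) h2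
  simp only [map_sub, map_add, map_smul, map_zero, hY, DSLift.qCoeffLin_apply, coe_restr, hVG,
    qCoeff_vForm, if_neg hq.not_dvd_one, smul_eq_mul, mul_zero, sub_zero, add_zero] at h3
  have hq2 : (q : ℂ) - (q : ℂ)⁻¹ ≠ 0 := by
    rw [sub_ne_zero]
    intro h4
    field_simp at h4
    have h5 : q ^ 2 = 1 := by exact_mod_cast h4
    exact hq.ne_one ((Nat.pow_eq_one.mp h5).resolve_right two_ne_zero)
  refine (mul_eq_zero.mp ?_).resolve_left hq2
  linear_combination h3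

end FermatAgent.RTLift.NewPart
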