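import Mathlib
import Fermat.Agent.RTLift.NewPart.TraceFree
import Fermat.Agent.DSLift.Eigenform
import Fermat.Agent.Periods.HeckeFinite

/-!
Eigenforms in a Hecke stable space of forms realising a given system of good eigenvalues; the
space of forms killed by `U_q` and by the trace from level `M q` to level `M` is Hecke stable.
-/

set_option autoImplicit false

noncomputable section

namespace FermatAgent.RTLift.NewPart

open CongruenceSubgroup ModularFormClass UpperHalfPlane ModularForm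
open scoped MatrixGroups ModularForm

theorem TraceFree.add {q M : ℕ} {f g : ℍ → ℂ} (hf : TraceFree q M f) (hg : TraceFree q M g) :
    TraceFree q M (f + g) := fun e he he' => by
  simp only [SlashAction.add_slash, Finset.sum_add_distrib, hf e he he', hg e he he', add_zero]

theorem TraceFree.zero (q M : ℕ) : TraceFree q M 0 := fun e he he' => by
  simp only [SlashAction.zero_slash, Finset.sum_const_zero]

/-- A factor prime to `q` in the level of the trace can be removed. -/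
theorem TraceFree.of_mul {q M l : ℕ} (hl : l.Coprime q) (f : CF (M * q))
    (h : TraceFree q (M * l) ⇑f) : TraceFree q M ⇑f := by
  intro e he he'
  obtain ⟨s, t, hst⟩ := (Nat.isCoprime_iff_coprime.mpr hl : IsCoprime (l : ℤ) (q : ℤ))
  have h1 : ((M * l : ℕ) : ℤ) ∣ e * (s * l) := by
    obtain ⟨e₀, rfl⟩ := he
    exact ⟨e₀ * s, by push_cast; ring⟩
  have h2 : ¬ ((q * q : ℕ) : ℤ) ∣ e * (s * l) := fun hd => he' <| by
    refine IsCoprime.dvd_of_dvd_mul_right ?_ hd
    have hsl : IsCoprime ((q : ℤ)) (s * l) := ⟨t, 1, by linear_combination hst⟩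
    push_cast
    exact hsl.mul_left hsl
  refine Eq.trans (Finset.sum_congr rfl fun j _ => ?_) (h _ h1 h2)
  obtain ⟨e₀, rfl⟩ := he
  have hmem : lowerUni ((j : ℤ) * ((M : ℤ) * e₀) * (s * l) - (j : ℤ) * ((M : ℤ) * e₀)) ∈
      Gamma0 (M * q) :=
    lowerUni_mem ⟨-((j : ℤ) * e₀ * t), by push_cast; linear_combination (j : ℤ) * M * e₀ * hst⟩
  conv_lhs => rw [← slash_eq_self f hmem, ← SlashAction.slash_mul, lowerUni_add]
  congr 2
  ring

/-- `U_r`, `r ≠ q`, keeps the trace zero. -/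
theorem TraceFree.heckeULin {q M r : ℕ} [NeZero r] (hq : q.Prime) (hr : r.Prime) (hqr : r ≠ q)
    (hqM : q ∣ M) [NeZero (M * q)] (hrN : r ∣ M * q) (f : CF (M * q)) (hf : TraceFree q M ⇑f) :
    TraceFree q M ⇑(CuspForm.heckeULin 2 hrN f) := by
  refine TraceFree.of_mul ((Nat.coprime_primes hr hq).mpr hqr) _ ?_
  rw [CuspForm.coe_heckeULin_apply]
  exact TraceFree.heckeU hq hr hqr hqM f hf

/-- `T_l` keeps the trace zero. -/
theorem TraceFree.heckeTLin {q M l : ℕ} (hq : q.Prime) (hl : l.Prime) (hqM : q ∣ M)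
    [NeZero (M * q)] (hlN : ¬ l ∣ M * q) (f : CF (M * q)) (hf : TraceFree q M ⇑f) :
    TraceFree q M ⇑(CuspForm.heckeTLin 2 hl hlN f) := by
  have hlq : l ≠ q := fun e => hlN (e ▸ dvd_mul_left q M)
  refine TraceFree.of_mul ((Nat.coprime_primes hl hq).mpr hlq) _ ?_
  rw [CuspForm.coe_heckeTLin_apply, ModularForm.heckeT_eq_heckeU_add]
  exact (TraceFree.heckeU hq hl hlq hqM f hf).add (hf.slash_diag hl.ne_zero)

set_option linter.unusedVariables false in
/-- The forms of level `M q` killed by `U_q` and by the trace to level `M`. -/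
def newSpace {q M : ℕ} [NeZero (M * q)] (hq : q ≠ 0) : Submodule ℂ (CF (M * q)) where
  carrier := {f | TraceFree q M ⇑f ∧
    haveI : NeZero q := ⟨hq⟩
    CuspForm.heckeULin 2 (dvd_mul_left q M) f = 0}
  add_mem' := fun ha hb => ⟨by rw [FunLike.coe_add]; exact ha.1.add hb.1, by
    rw [map_add, ha.2, hb.2, add_zero]⟩
  zero_mem' := ⟨by rw [FunLike.coe_zero]; exact TraceFree.zero q M, map_zero _⟩
  smul_mem' := fun c f hf => ⟨by rw [FunLike.coe_smul]; exact hf.1.smul c, by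
    rw [map_smul, hf.2, smul_zero]⟩

theorem mem_newSpace {q M : ℕ} [NeZero (M * q)] [NeZero q] (hq : q ≠ 0) {f : CF (M * q)} :
    f ∈ newSpace (M := M) hq ↔
      TraceFree q M ⇑f ∧ CuspForm.heckeULin 2 (dvd_mul_left q M) f = 0 := Iff.rfl

section Eigen

variable {N : ℕ} [NeZero N]

/-- `W` is stable under all Hecke operators. -/
def IsHeckeStable (W : Submodule ℂ (CF N)) : Prop :=
  ∀ t : CuspForm.heckeAlgebra N 2 (∅ : Set ℕ), ∀ f ∈ W, t.1 f ∈ W

theorem isHeckeStable_of_generators {W : Submodule ℂ (CF N)}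
    (hT : ∀ (p : ℕ) (hp : p.Prime) (hpN : ¬ p ∣ N), ∀ f ∈ W, CuspForm.heckeTLin 2 hp hpN f ∈ W)
    (hU : ∀ (p : ℕ) (hp : p.Prime) (hpN : p ∣ N),
      haveI : NeZero p := ⟨hp.ne_zero⟩
      ∀ f ∈ W, CuspForm.heckeULin 2 hpN f ∈ W) : IsHeckeStable W := by
  rintro ⟨t, ht⟩
  induction ht using Algebra.adjoin_induction with
  | mem x hx =>
    rcases hx with ⟨p, hp, hpN, -, rfl⟩ | ⟨p, hpN, hp, -, rfl⟩
    · exact hT p hp hpN
    · exact hU p hp hpN
  | algebraMap r =>
    intro f hf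
    show (algebraMap ℤ (Module.End ℂ (CF N)) r) f ∈ W
    rw [eq_intCast, Module.End.intCast_apply]
    exact zsmul_mem hf r
  | add x y hxm hym hx hy =>
    intro f hf
    show (x + y) f ∈ W
    rw [LinearMap.add_apply]
    exact add_mem (hx f hf) (hy f hf)
  | mul x y hxm hym hx hy =>
    intro f hf
    show (x * y) f ∈ W
    rw [Module.End.mul_apply]
    exact hx _ (hy f hf)

theorem isHeckeStable_newSpace {q M : ℕ} [NeZero (M * q)] (hq : q.Prime) (hqM : q ∣ M) :
    IsHeckeStable (newSpace (M := M) hq.ne_zero) := by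
  have : NeZero q := ⟨hq.ne_zero⟩
  have hcomm : ∀ (t : CuspForm.heckeAlgebra (M * q) 2 (∅ : Set ℕ)) (f : CF (M * q)),
      CuspForm.heckeULin 2 (dvd_mul_left q M) (t.1 f) =
        t.1 (CuspForm.heckeULin 2 (dvd_mul_left q M) f) := fun t f =>
    LinearMap.congr_fun (congrArg Subtype.val (mul_comm
      (CuspForm.heckeAlgebra.U (k := 2) hq (dvd_mul_left q M) (Set.notMem_empty q)) t)) f
  refine isHeckeStable_of_generators (fun p hp hpN f hf => ⟨?_, ?_⟩) fun p hp hpN f hf => ?_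
  · exact TraceFree.heckeTLin hq hp hqM hpN f hf.1
  · refine (hcomm (CuspForm.heckeAlgebra.T hp hpN (Set.notMem_empty p)) f).trans ?_
    rw [hf.2, map_zero]
  · rcases eq_or_ne p q with rfl | hpq
    · exact hf.2.symm ▸ zero_mem _
    · have : NeZero p := ⟨hp.ne_zero⟩
      refine ⟨TraceFree.heckeULin hq hp hpq hqM hpN f hf.1, ?_⟩
      refine (hcomm (CuspForm.heckeAlgebra.U hp hpN (Set.notMem_empty p)) f).trans ?_
      rw [hf.2, map_zero]

/-- A stable nonzero space contains an eigenvector of all Hecke operators. -/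
theorem exists_eigenvector_mem {W : Submodule ℂ (CF N)} (hW : IsHeckeStable W) (h0 : W ≠ ⊥) :
    ∃ y ∈ W, y ≠ 0 ∧ ∀ t : CuspForm.heckeAlgebra N 2 (∅ : Set ℕ), ∃ c : ℂ, t.1 y = c • y := by
  classical
  have : FiniteDimensional ℂ (CF N) := DSLift.finiteDimensional_cuspForm (ModCurve.Forms.hasIntegralStructure_two N)
  have hex : ∃ d, ∃ U : Submodule ℂ (CF N),
      U ≤ W ∧ U ≠ ⊥ ∧ IsHeckeStable U ∧ Module.finrank ℂ U = d := ⟨_, W, le_rfl, h0, hW, rfl⟩
  obtain ⟨U, hUW, hU0, hU, hd⟩ := Nat.find_spec hex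
  have hscal : ∀ t : CuspForm.heckeAlgebra N 2 (∅ : Set ℕ), ∃ c : ℂ, ∀ v ∈ U, t.1 v = c • v := by
    intro t
    have : Nontrivial U := Submodule.nontrivial_iff_ne_bot.mpr hU0
    obtain ⟨c, hc⟩ := Module.End.exists_eigenvalue (t.1.restrict (hU t))
    obtain ⟨v, hv⟩ := hc.exists_hasEigenvector
    let E : Submodule ℂ (CF N) := U ⊓ LinearMap.ker (t.1 - c • 1)
    have hE : ∀ v, v ∈ E ↔ v ∈ U ∧ t.1 v = c • v := fun v => by
      simp [E, Submodule.mem_inf, LinearMap.mem_ker, sub_eq_zero]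
    have hEU : E ≤ U := inf_le_left
    have hEst : IsHeckeStable E := fun s w hw => by
      obtain ⟨hw1, hw2⟩ := (hE w).mp hw
      refine (hE _).mpr ⟨hU s w hw1, ?_⟩
      rw [← Module.End.mul_apply, ← Subalgebra.coe_mul, mul_comm, Subalgebra.coe_mul,
        Module.End.mul_apply, hw2, map_smul]
    have hE0 : E ≠ ⊥ := fun he => hv.2 (Subtype.ext (by
      have hmem : (v : CF N) ∈ E := (hE _).mpr ⟨v.2, by
        have := congrArg Subtype.val hv.apply_eq_smul
        simpa using this⟩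
      rw [he, Submodule.mem_bot] at hmem
      exact hmem))
    have hmin : E = U := by
      refine Submodule.eq_of_le_of_finrank_le hEU ?_
      rw [hd]
      exact Nat.find_min' hex ⟨E, hEU.trans hUW, hE0, hEst, rfl⟩
    exact ⟨c, fun w hw => ((hE w).mp (hmin.symm ▸ hw)).2⟩
  obtain ⟨y, hy, hy0⟩ := Submodule.exists_mem_ne_zero_of_ne_bot hU0
  exact ⟨y, hUW hy, hy0, fun t => (hscal t).imp fun c hc => hc y hy⟩

/-- An eigenvector of all Hecke operators with first coefficient one is a normalised eigenform. -/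
theorem isNormalizedEigenform_of_isPrimeEigen {g : CF N} {lam : ℕ → ℂ}
    (h : DSLift.IsPrimeEigen g lam) (h1 : qCoeff ⇑g 1 = 1) : g.IsNormalizedEigenform := by
  have hp' : ∀ p : ℕ, p.Prime → qCoeff ⇑g p = lam p := fun p hp => by
    simpa [h1, hp.ne_one] using h.qCoeff_mul_prime hp 1
  refine ⟨h1, fun m n hmn => ?_, fun p r hp hpN => ?_, fun p r hp hpN => ?_⟩
  · simpa [h1] using h.qCoeff_mul_coprime m n hmn
  · rw [hp' p hp, pow_succ p (r + 1), h.qCoeff_mul_prime hp,
      if_pos ⟨dvd_pow_self p (Nat.succ_ne_zero r), hpN⟩, pow_succ p r,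
      Nat.mul_div_cancel _ hp.pos]
  · rw [hp' p hp, pow_succ p (r + 1), h.qCoeff_mul_prime hp, if_neg fun hh => hh.2 hpN, sub_zero]

/-- **An eigenform in a stable space realising a system of good eigenvalues.** -/
theorem exists_eigenform_system {G : Type*} (l : G → ℕ) (hl : ∀ i, (l i).Prime)
    (hlN : ∀ i, ¬ l i ∣ N) {R : Type*} [CommRing R] [IsDomain R] [CharZero R] (a : G → R)
    (hint : ∀ i, IsIntegral ℤ (a i)) (W : Submodule ℂ (CF N)) (hW : IsHeckeStable W) {f : CF N}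
    (hf : f ∈ W) (hf0 : f ≠ 0)
    (hkill : ∀ P : MvPolynomial G ℤ, MvPolynomial.aeval a P = 0 →
      (MvPolynomial.aeval (fun i => CuspForm.heckeAlgebra.T (k := 2) (hl i) (hlN i)
        (Set.notMem_empty (l i))) P : CuspForm.heckeAlgebra N 2 (∅ : Set ℕ)).1 f = 0) :
    ∃ y ∈ W, y.IsNormalizedEigenform ∧ ∀ P : MvPolynomial G ℤ,
      MvPolynomial.aeval a P = 0 ↔ MvPolynomial.aeval (fun i => qCoeff ⇑y (l i)) P = 0 := by
  classical
  let T : MvPolynomial G ℤ →ₐ[ℤ] CuspForm.heckeAlgebra N 2 (∅ : Set ℕ) :=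
    MvPolynomial.aeval fun i => CuspForm.heckeAlgebra.T (k := 2) (hl i) (hlN i)
      (Set.notMem_empty (l i))
  let W₂ : Submodule ℂ (CF N) :=
    W ⊓ ⨅ P ∈ RingHom.ker (MvPolynomial.aeval a : MvPolynomial G ℤ →ₐ[ℤ] R), LinearMap.ker (T P).1
  have hmem : ∀ v, v ∈ W₂ ↔ v ∈ W ∧ ∀ P, MvPolynomial.aeval a P = 0 → (T P).1 v = 0 := fun v => by
    simp [W₂, Submodule.mem_inf, RingHom.mem_ker]
  have hW₂ : IsHeckeStable W₂ := fun s v hv => by
    obtain ⟨h1, h2⟩ := (hmem v).mp hv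
    refine (hmem _).mpr ⟨hW s v h1, fun P hP => ?_⟩
    rw [← Module.End.mul_apply, ← Subalgebra.coe_mul, mul_comm, Subalgebra.coe_mul,
      Module.End.mul_apply, h2 P hP, map_zero]
  have hW₂0 : W₂ ≠ ⊥ := fun h0 => hf0 ((Submodule.mem_bot ℂ).mp (h0 ▸ (hmem f).mpr ⟨hf, hkill⟩))
  obtain ⟨y₀, hy₀, hy₀0, heig⟩ := exists_eigenvector_mem hW₂ hW₂0
  choose c hc using heig
  let lam : ℕ → ℂ := fun p => if hp : p.Prime then
    if hpN : p ∣ N then c (CuspForm.heckeAlgebra.U hp hpN (Set.notMem_empty p))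
    else c (CuspForm.heckeAlgebra.T hp hpN (Set.notMem_empty p)) else 0
  have he : DSLift.IsPrimeEigen y₀ lam :=
    ⟨fun p hp hpN => by simp only [lam, dif_pos hp, dif_neg hpN]; exact hc (CuspForm.heckeAlgebra.T hp hpN _),
      fun p hp hpN => by simp only [lam, dif_pos hp, dif_pos hpN]; exact hc (CuspForm.heckeAlgebra.U hp hpN _)⟩
  set s : ℂ := (qCoeff ⇑y₀ 1)⁻¹
  have hs : (s • y₀).IsNormalizedEigenform := isNormalizedEigenform_of_isPrimeEigen (lam := lam)
    ⟨fun p hp hpN => by rw [map_smul, he.1 p hp hpN, smul_comm],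
      fun p hp hpN => by rw [map_smul, he.2 p hp hpN, smul_comm]⟩
    (by rw [DSLift.qCoeff_smul', inv_mul_cancel₀ (he.qCoeff_one_ne_zero hy₀0)])
  have hs₂ : s • y₀ ∈ W₂ := W₂.smul_mem s hy₀
  obtain ⟨χ, hχ, hχT, -⟩ := DSLift.exists_ringHom_of_isNormalizedEigenform hs (∅ : Set ℕ)
  refine ⟨s • y₀, ((hmem _).mp hs₂).1, hs, ?_⟩
  -- the evaluation at `y` factors through that at `a`
  set b : G → ℂ := fun i => qCoeff ⇑(s • y₀) (l i)
  have hb : ∀ P, MvPolynomial.aeval b P = χ (T P) := fun P => by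
    have : (MvPolynomial.aeval b : MvPolynomial G ℤ →ₐ[ℤ] ℂ) = χ.toIntAlgHom.comp T :=
      MvPolynomial.algHom_ext fun i => by simp [b, T, hχT _ (hl i) (hlN i)]
    rw [this]; rfl
  have hle : ∀ P, MvPolynomial.aeval a P = 0 → MvPolynomial.aeval b P = 0 := fun P hP => by
    have h1 := hχ (T P)
    rw [((hmem _).mp hs₂).2 P hP] at h1
    rw [hb]
    exact (smul_eq_zero.mp h1.symm).resolve_right fun h0 => by
      have h1 := hs.qCoeff_one
      rw [h0, ← DSLift.qCoeffLin_apply, map_zero] at h1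
      exact zero_ne_one h1
  refine fun P => ⟨hle P, fun hP => ?_⟩
  let ea : MvPolynomial G ℤ →+* R := (MvPolynomial.aeval a).toRingHom
  let φ : MvPolynomial G ℤ ⧸ RingHom.ker ea →+* ℂ :=
    Ideal.Quotient.lift _ (MvPolynomial.aeval b).toRingHom fun Q hQ => hle Q hQ
  have : (RingHom.ker ea).IsPrime := RingHom.ker_isPrime ea
  have hinj : Function.Injective (RingHom.kerLift ea).toIntAlgHom := RingHom.kerLift_injective ea
  have : Algebra.IsIntegral ℤ (MvPolynomial G ℤ ⧸ RingHom.ker ea) := ⟨fun x => by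
    refine (isIntegral_algHom_iff (RingHom.kerLift ea).toIntAlgHom hinj).mp ?_
    obtain ⟨Q, rfl⟩ := Ideal.Quotient.mk_surjective x
    show IsIntegral ℤ (MvPolynomial.aeval a Q)
    induction Q using MvPolynomial.induction_on with
    | C n => rw [MvPolynomial.aeval_C]; exact isIntegral_algebraMap
    | add x y hx hy => rw [map_add]; exact hx.add hy
    | mul_X x i hx => rw [map_mul, MvPolynomial.aeval_X]; exact hx.mul (hint i)⟩
  have hker : RingHom.ker φ = ⊥ := by
    refine Ideal.eq_bot_of_comap_eq_bot (R := ℤ) ((Submodule.eq_bot_iff _).mpr fun n hn => ?_)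
    rw [Ideal.mem_comap, RingHom.mem_ker, eq_intCast, map_intCast] at hn
    exact_mod_cast hn
  exact Ideal.Quotient.eq_zero_iff_mem.mp
    ((Submodule.mem_bot _).mp (hker ▸ RingHom.mem_ker.mpr (show φ (Ideal.Quotient.mk _ P) = 0 from hP)))

end Eigen

end FermatAgent.RTLift.NewPart
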