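import Mathlib
import Fermat.Agent.RTLift.Old.TWResidual

/-!
A residual eigen character at level `N q`, `q ≡ 1`, with `U_q ≡ α`, `α² ≠ 1`, is an old one.
-/

set_option autoImplicit false

noncomputable section

namespace FermatAgent.RTLift.NewPart

open scoped MatrixGroups
open CongruenceSubgroup FermatAgent.RTLift.Modules FermatAgent.RTLift.Old

variable {k : Type} [Field k] {N q : ℕ} [NeZero q] [NeZero (N * q)]

set_option maxHeartbeats 2000000 in
/-- **Old residual characters.** -/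
theorem exists_old_hom (hq : q.Prime) (hqN : ¬ q ∣ N) (hq1 : (q : k) = 1) {α : k} (hα : α ≠ 0)
    (hα2 : α ^ 2 ≠ 1) {ψ : Additive (Gamma0 (N * q)) →+ k} (hψ : ψ ≠ 0)
    (hU : Periods.heckeHomU k (N * q) (dvd_mul_left q N) ψ = α • ψ) :
    ∃ x₀ : Additive (Gamma0 N) →+ k, x₀ ≠ 0 ∧
      Periods.heckeHomT k N hq hqN x₀ = (α + α⁻¹) • x₀ ∧
      ψ = (-α) • x₀.comp (MonoidHom.toAdditive (Ihara.degIncl N q)) +
        x₀.comp (MonoidHom.toAdditive (Ihara.degConj N q)) ∧
      ∀ (l : ℕ) (hl : l.Prime) (hlN : ¬ l ∣ N) (hlNq : ¬ l ∣ N * q) (a : k),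
        Periods.heckeHomT k (N * q) hl hlNq ψ = a • ψ →
          Periods.heckeHomT k N hl hlN x₀ = a • x₀ := by
  obtain ⟨x, y, hxy⟩ : ∃ x y : ℤ, x * q - y * N = 1 := by
    obtain ⟨a, b, hab⟩ := Int.isCoprime_iff_gcd_eq_one.mpr
      (show Int.gcd (q : ℤ) N = 1 by exact_mod_cast hq.coprime_iff_not_dvd.mpr hqN)
    exact ⟨a, -b, by linear_combination hab⟩
  set h : 1 ∣ N := one_dvd N
  set θ : (ZMod 1)ˣ →* k := 1
  have hA : IsTrivialOn θ k := fun g a => by simp [θ]
  set e := levelEquiv (h.mul_right q) hA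
  set e₀ := levelEquiv h hA
  set Ψ := e.symm ψ
  have hΨU : heckeU (h.mul_right q) θ k (dvd_mul_left q N) Ψ = α • Ψ := e.injective (by
    rw [map_smul, levelEquiv_heckeU, e.apply_symm_apply, hU])
  obtain ⟨c, d, hcd⟩ : ∃ c d, beta h θ k hxy Ψ = (c, d) := ⟨_, _, rfl⟩
  have h1 := beta_heckeU h θ hxy hA hq hqN Ψ
  rw [hΨU, map_smul, hcd, Prod.smul_mk, Prod.mk.injEq, ← Nat.cast_smul_eq_nsmul k, hq1,
    one_smul] at h1
  obtain ⟨h1, h2⟩ := h1
  dsimp only at h1 h2
  -- `d = α c` and the eigenvalue of `T_q`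
  have hTc : heckeT h θ k hq hqN c = (α + α⁻¹) • c := by
    rw [← h1, map_smul] at h2
    refine smul_right_injective _ hα ?_
    show α • heckeT h θ k hq hqN c = α • _
    rw [← eq_sub_iff_add_eq.mp h2, smul_smul, smul_smul, mul_add, mul_inv_cancel₀ hα,
      add_smul, one_smul]
  set μ : k := α⁻¹ - α
  have hμ : μ ≠ 0 := fun h0 => hα2 (by
    rw [sq]
    nth_rewrite 1 [← sub_eq_zero.mp h0]
    exact inv_mul_cancel₀ hα)
  set z := alpha h θ k hxy ((-α) • c, c)
  have hUz : heckeU (h.mul_right q) θ k (dvd_mul_left q N) z = α • z := by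
    simp only [z, alpha_apply, map_add, map_smul, heckeU_degI h θ hxy hq hqN,
      heckeU_degD_trivial h θ hxy hA hq hqN, hTc, ← Nat.cast_smul_eq_nsmul k, hq1, one_smul,
      smul_sub, smul_add, smul_smul]
    rw [show -α * (α + α⁻¹) = α * -α - 1 by rw [mul_add, mul_neg, neg_mul, neg_mul,
      mul_inv_cancel₀ hα, sub_eq_add_neg], sub_smul, one_smul]
    module
  have hβz : beta h θ k hxy z = μ • (c, d) := by
    rw [beta_alpha h θ hxy hq hqN, alScalar_smul h θ hxy hA, map_smul, hTc, ← h1,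
      ← Nat.cast_smul_eq_nsmul k, ← Nat.cast_smul_eq_nsmul k, Nat.cast_add, hq1, Nat.cast_one]
    simp only [Prod.smul_mk, smul_smul, ← add_smul, μ]
    refine Prod.ext ?_ ?_ <;> congr 1 <;> field_simp <;> ring_nf
  have hz : μ • Ψ = z := by
    rw [← sub_eq_zero]
    set w := μ • Ψ - z
    have hw0 : beta h θ k hxy w = 0 := by rw [map_sub, map_smul, hcd, hβz, sub_self]
    have h3 := heckeU_heckeU_of_beta_eq_zero h θ hxy hA hq hqN hw0
    have hUw : heckeU (h.mul_right q) θ k (dvd_mul_left q N) w = α • w := by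
      rw [map_sub, map_smul, hΨU, hUz, smul_sub, smul_comm]
    rw [hUw, map_smul, hUw, smul_smul, ← sub_eq_zero] at h3
    replace h3 : (α * α - 1) • w = 0 := by rw [sub_smul, one_smul]; exact h3
    exact (smul_eq_zero.mp h3).resolve_left (sub_ne_zero.mpr (by rwa [← sq]))
  have hc0 : c ≠ 0 := fun h0 => hψ (e.symm.injective (by
    rw [map_zero, show e.symm ψ = Ψ from rfl, ← smul_eq_zero_iff_right hμ, hz]
    simp [z, h0, alpha_apply]))
  refine ⟨μ⁻¹ • e₀ c, smul_ne_zero (inv_ne_zero hμ) fun h0 => hc0 (e₀.injective (h0.trans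
    (map_zero _).symm)), ?_, ?_, fun l hl hlN hlNq a ha => ?_⟩
  · have h5 : Periods.heckeHomT k N hq hqN (e₀ c) = (α + α⁻¹) • e₀ c :=
      (levelEquiv_heckeT h hA hq hqN c).symm.trans
        ((congrArg (fun v => levelEquiv h hA v) hTc).trans ((levelEquiv h hA).map_smul _ c))
    rw [LinearMap.map_smul, h5]
    exact smul_comm _ _ _
  · have h5 : μ • ψ = (-α) • (e₀ c).comp (MonoidHom.toAdditive (Ihara.degIncl N q)) +
        (e₀ c).comp (MonoidHom.toAdditive (Ihara.degConj N q)) := by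
      have h6 := congrArg (fun v => levelEquiv (h.mul_right q) hA v) hz
      simp only [z, alpha_apply, map_add, map_smul, levelEquiv_degI h hA, levelEquiv_degD h hA] at h6
      rw [show levelEquiv (h.mul_right q) hA Ψ = ψ from e.apply_symm_apply ψ] at h6
      exact h6
    ext g
    refine mul_left_cancel₀ hμ ((DFunLike.congr_fun h5 g).trans ?_)
    show -α * e₀ c _ + e₀ c _ = μ * (-α * (μ⁻¹ * e₀ c _) + μ⁻¹ * e₀ c _)
    field_simp
    rfl
  · have hl' : ∀ j : Unit, ((fun _ : Unit => (⟨l, hl⟩ : Nat.Primes)) j : ℕ) ≠ q := fun _ he =>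
      hlNq (Dvd.intro_left N (by rw [← he]))
    have h5 := congrArg (fun v => (beta h θ k hxy v).1)
      (e.injective (((levelEquiv_heckeT (h.mul_right q) hA hl hlNq Ψ).trans
        (by rw [e.apply_symm_apply])).trans (ha.trans (by rw [map_smul, e.apply_symm_apply]))) :
        heckeT (h.mul_right q) θ k hl hlNq Ψ = a • Ψ)
    have h6 := trace_heckeOp h θ (fun _ : Unit => (⟨l, hl⟩ : Nat.Primes)) hq hl' () Ψ
    rw [heckeOp_of_not_dvd (h.mul_right q) θ k (l := ⟨l, hl⟩) hlNq,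
      heckeOp_of_not_dvd h θ k (l := ⟨l, hl⟩) hlN] at h6
    simp only [beta_apply, map_smul] at h5
    rw [h6] at h5
    have hc : trace h (h.mul_right q) θ k Ψ = c := congrArg Prod.fst hcd
    rw [hc] at h5
    dsimp only [Prod.smul_mk] at h5
    rw [map_smul, show Periods.heckeHomT k N hl hlN (e₀ c) = e₀ (heckeT h θ k hl hlN c) from
      (levelEquiv_heckeT h hA hl hlN c).symm, h5, map_smul e₀, smul_comm]

end FermatAgent.RTLift.NewPart
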