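import Mathlib
import Fermat.Agent.RTLift.NewPart.TraceFree
import Fermat.Agent.RTLift.Systems.Deep
import Fermat.Agent.ModCurve.Forms.PeriodPairInjective
import Fermat.Agent.ModCurve.Forms.IntegralForms

/-!
Periods whose trace from level `M q` to level `M` vanishes on deep elements come from forms killed
by the trace.
-/

set_option autoImplicit false

noncomputable section

namespace FermatAgent.RTLift.NewPart

open CongruenceSubgroup ModularFormClass UpperHalfPlane ModularForm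
open ModularCurve ModularCurve.Period FermatAgent.Periods
open scoped MatrixGroups ModularForm

theorem periodVec_finset_sum {ι : Type*} (n : ℕ) (s : Finset ι) (g : ι → ℂ → ℂ)
    (hg : ∀ i ∈ s, VDecay (g i)) (hs : s.Nonempty) (A : Matrix (Fin 2) (Fin 2) ℤ) (hA : 0 < A.det) :
    VDecay (fun z => ∑ i ∈ s, g i z) ∧
      periodVec n (fun z => ∑ i ∈ s, g i z) A = ∑ i ∈ s, periodVec n (g i) A := by
  induction hs using Finset.Nonempty.cons_induction with
  | singleton a => simpa using hg a (Finset.mem_singleton_self a)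
  | cons a s ha hs ih =>
    obtain ⟨h1, h2⟩ := ih fun i hi => hg i (Finset.mem_cons.mpr (Or.inr hi))
    have hga := hg a (Finset.mem_cons_self a s)
    simp only [Finset.sum_cons]
    exact ⟨hga.add h1, by rw [periodVec_add n hga h1 A hA, h2]⟩

/-- The periods of a translate. -/
theorem periodVec_extC_slash {N : ℕ} [NeZero N] (f : CF N) (δ x : SL(2, ℤ))
    (hy : δ * x * δ⁻¹ ∈ Gamma0 N) :
    periodVec 0 (extC (⇑f ∣[(2 : ℤ)] δ)) (x : Matrix (Fin 2) (Fin 2) ℤ) 0 =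
      periodMap N f (Additive.ofMul ⟨δ * x * δ⁻¹, hy⟩) := by
  have hI : Complex.I ∈ Periods.upperSet := Periods.I_mem_upperSet
  obtain ⟨c, hc⟩ := exists_pullVec_eq_add 0 (vDecay_cuspForm f) (vDecay_slash f δ)
    (δ : Matrix (Fin 2) (Fin 2) ℤ) (det_SL_pos δ)
    fun z hz => extC_slash_SL_eq_slashC two_eq (⇑f) δ hz
  have hkey : ∀ τ : ℍ, momInt (extC (⇑f ∣[(2 : ℤ)] δ)) 0 τ = primitive f (δ • τ) - c 0 := fun τ => by
    have h := congrFun (hc (τ : ℂ) τ.im_pos) 0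
    rw [pullVec_zero_apply, ← coe_SL_smul, Pi.add_apply, momVec] at h
    rw [primitive, h]
    simp
  set τ : ℍ := ⟨Complex.I, hI⟩
  rw [periodMap_apply_eq_sub f _ (δ • τ)]
  change _ = primitive f ((δ * x * δ⁻¹) • δ • τ) - primitive f (δ • τ)
  rw [smul_smul, inv_mul_cancel_right, mul_smul]
  change pullVec 0 (x : Matrix (Fin 2) (Fin 2) ℤ) _ (τ : ℂ) 0 - momVec 0 _ (τ : ℂ) 0 = _
  rw [pullVec_zero_apply, ← coe_SL_smul, momVec, hkey]
  show _ - momInt _ ((0 : Fin 1) : ℕ) (τ : ℂ) = _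
  rw [Fin.val_zero, hkey]
  ring

variable {M q : ℕ}

/-- The cosets `lowerUni (j e)` are permuted by `Γ₀(M)`. -/
theorem sum_slash_lowerUni_slash (hq : q.Prime) (hqM : q ∣ M) [NeZero (M * q)] (f : CF (M * q))
    {e : ℤ} (hMe : (M : ℤ) ∣ e) (he : ¬ ((q * q : ℕ) : ℤ) ∣ e) {g : SL(2, ℤ)} (hg : g ∈ Gamma0 M) :
    (∑ j ∈ Finset.range q, ⇑f ∣[(2 : ℤ)] lowerUni ((j : ℤ) * e)) ∣[(2 : ℤ)] g =
      ∑ j ∈ Finset.range q, ⇑f ∣[(2 : ℤ)] lowerUni ((j : ℤ) * e) := by
  have := Fact.mk hq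
  obtain ⟨e₀, he₀⟩ := hMe
  obtain ⟨c₀, hc₀⟩ := (ZMod.intCast_zmod_eq_zero_iff_dvd _ _).mp (Gamma0_mem.mp hg)
  have he₀q : (e₀ : ZMod q) ≠ 0 := fun h0 => he <| by
    obtain ⟨t, rfl⟩ := (ZMod.intCast_zmod_eq_zero_iff_dvd _ _).mp h0
    obtain ⟨M', rfl⟩ := hqM
    exact ⟨M' * t, by rw [he₀]; push_cast; ring⟩
  obtain ⟨ha, hd⟩ : ((g 0 0 : ℤ) : ZMod q) ≠ 0 ∧ ((g 1 1 : ℤ) : ZMod q) ≠ 0 := by
    have hdet : g 0 0 * g 1 1 - g 0 1 * g 1 0 = 1 := by rw [← Matrix.det_fin_two]; exact g.2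
    have h1 := congrArg (Int.cast : ℤ → ZMod q) hdet
    have h10 : ((g 1 0 : ℤ) : ZMod q) = 0 := (ZMod.intCast_zmod_eq_zero_iff_dvd _ _).mpr
      ((Int.natCast_dvd_natCast.mpr hqM).trans (Dvd.intro c₀ hc₀.symm))
    push_cast at h1
    rw [h10, mul_zero, sub_zero] at h1
    exact ⟨left_ne_zero_of_mul_eq_one h1, right_ne_zero_of_mul_eq_one h1⟩
  -- the permutation of the indices
  let π : ℕ → ℕ := fun j =>
    ((((j : ZMod q) * (e₀ : ZMod q) * ((g 0 0 : ℤ) : ZMod q) + (c₀ : ZMod q)) *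
      ((e₀ : ZMod q) * ((g 1 1 : ℤ) : ZMod q))⁻¹)).val
  have hterm : ∀ j : ℕ, (⇑f ∣[(2 : ℤ)] lowerUni ((j : ℤ) * e)) ∣[(2 : ℤ)] g =
      ⇑f ∣[(2 : ℤ)] lowerUni ((π j : ℤ) * e) := by
    intro j
    obtain ⟨t, ht⟩ : (q : ℤ) ∣ (j : ℤ) * e₀ * g 0 0 + c₀ - (π j : ℤ) * e₀ * g 1 1 := by
      rw [← ZMod.intCast_zmod_eq_zero_iff_dvd]
      push_cast
      simp only [π, ZMod.natCast_val, ZMod.cast_id', id]
      field_simp
      ring
    obtain ⟨M', hM'⟩ := hqM
    have hmem : lowerUni ((j : ℤ) * e) * g * lowerUni (-((π j : ℤ) * e)) ∈ Gamma0 (M * q) := by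
      refine Gamma0_mem.mpr ((ZMod.intCast_zmod_eq_zero_iff_dvd _ _).mpr
        ⟨t - (π j : ℤ) * j * g 0 1 * (M' * e₀ * e₀), ?_⟩)
      rw [Matrix.SpecialLinearGroup.coe_mul, Matrix.SpecialLinearGroup.coe_mul, coe_lowerUni,
        coe_lowerUni]
      simp [Matrix.mul_apply, Matrix.vecMul, dotProduct, Fin.sum_univ_two, -ZMod.natCast_val]
      rw [he₀, hc₀]
      have hMz : (M : ℤ) = q * M' := by rw [hM']; push_cast; ring
      linear_combination (M : ℤ) * ht -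
        (π j : ℤ) * j * g 0 1 * e₀ * e₀ * (M : ℤ) * hMz
    conv_rhs => rw [← slash_eq_self f hmem]
    rw [← SlashAction.slash_mul, ← SlashAction.slash_mul, mul_assoc (lowerUni _ * g), lowerUni_add,
      neg_add_cancel, lowerUni_zero, mul_one]
  simp only [SlashAction.sum_slash, hterm]
  have hπ : ∀ j, π j ∈ Finset.range q := fun j => Finset.mem_range.mpr (ZMod.val_lt _)
  refine Finset.sum_bij (fun j _ => π j) (fun j _ => hπ j) (fun i hi j hj hij => ?_) (fun k hk => ?_)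
    fun j _ => rfl
  · have h1 := ZMod.val_injective q hij
    have hne : (e₀ : ZMod q) * ((g 1 1 : ℤ) : ZMod q) ≠ 0 := mul_ne_zero he₀q hd
    rw [mul_left_inj' (inv_ne_zero hne), add_left_inj] at h1
    rw [mul_left_inj' ha, mul_left_inj' he₀q] at h1
    have h2 := congrArg ZMod.val h1
    rwa [ZMod.val_natCast, ZMod.val_natCast, Nat.mod_eq_of_lt (Finset.mem_range.mp hi),
      Nat.mod_eq_of_lt (Finset.mem_range.mp hj)] at h2
  · refine ⟨((((k : ZMod q) * ((e₀ : ZMod q) * ((g 1 1 : ℤ) : ZMod q)) - (c₀ : ZMod q)) *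
      ((e₀ : ZMod q) * ((g 0 0 : ℤ) : ZMod q))⁻¹)).val, Finset.mem_range.mpr (ZMod.val_lt _), ?_⟩
    simp only [π, ZMod.natCast_val, ZMod.cast_id', id]
    conv_rhs => rw [← Nat.mod_eq_of_lt (Finset.mem_range.mp hk), ← ZMod.val_natCast]
    congr 1
    field_simp
    ring

theorem isCF_sum_slash_lowerUni (hq : q.Prime) (hqM : q ∣ M) [NeZero (M * q)] (f : CF (M * q))
    {e : ℤ} (hMe : (M : ℤ) ∣ e) (he : ¬ ((q * q : ℕ) : ℤ) ∣ e) :
    ModCurve.Forms.IsCF (Gamma0 M) 2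
      (∑ j ∈ Finset.range q, ⇑f ∣[(2 : ℤ)] lowerUni ((j : ℤ) * e)) := by
  have hz : ∀ γ : SL(2, ℤ), IsZeroAtImInfty
      ((∑ j ∈ Finset.range q, ⇑f ∣[(2 : ℤ)] lowerUni ((j : ℤ) * e)) ∣[(2 : ℤ)] γ) := fun γ => by
    rw [SlashAction.sum_slash]
    simp only [← SlashAction.slash_mul]
    have h := tendsto_finsetSum (Finset.range q) fun j _ =>
      CuspFormClass.zero_at_infty_slash f (lowerUni ((j : ℤ) * e) * γ)
    simpa [UpperHalfPlane.IsZeroAtImInfty, Filter.ZeroAtFilter, Finset.sum_fn] using h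
  refine ⟨⟨?_, fun γ hγ => sum_slash_lowerUni_slash hq hqM f hMe he hγ,
    fun γ => (hz γ).isBoundedAtImInfty⟩, hz⟩
  exact MDifferentiable.sum fun j _ => (CuspFormClass.holo f).slash 2 _

/-- The trace with the representatives `lowerUni (j e)`. -/
def lowerTrace (hq : q.Prime) (hqM : q ∣ M) [NeZero (M * q)] [NeZero M] (f : CF (M * q)) {e : ℤ}
    (hMe : (M : ℤ) ∣ e) (he : ¬ ((q * q : ℕ) : ℤ) ∣ e) : CF M :=
  (isCF_sum_slash_lowerUni hq hqM f hMe he).toCuspForm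

theorem coe_lowerTrace (hq : q.Prime) (hqM : q ∣ M) [NeZero (M * q)] [NeZero M] (f : CF (M * q))
    {e : ℤ} (hMe : (M : ℤ) ∣ e) (he : ¬ ((q * q : ℕ) : ℤ) ∣ e) :
    ⇑(lowerTrace hq hqM f hMe he) =
      ∑ j ∈ Finset.range q, ⇑f ∣[(2 : ℤ)] lowerUni ((j : ℤ) * e) :=
  ModCurve.Forms.IsCF.coe_toCuspForm _

theorem jConjSL_lowerUni (a : ℤ) : jConjSL (lowerUni a) = lowerUni (-a) := by
  ext i j
  rw [jConjSL_coe]
  fin_cases i <;> fin_cases j <;> simp [jConjMat, lowerUni]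

/-- A hom vanishing on a finite index congruence subgroup vanishes. -/
theorem hom_eq_zero_of_deep {M K : ℕ} [NeZero K] (φ : Additive (Gamma0 M) →+ ℂ)
    (h : ∀ x : Gamma0 M, (x : SL(2, ℤ)) ∈ Gamma K → φ (Additive.ofMul x) = 0) : φ = 0 := by
  refine AddMonoidHom.ext fun γ => ?_
  obtain ⟨γ, rfl⟩ := Additive.ofMul.surjective γ
  have : ((Gamma K).subgroupOf (Gamma0 M)).Normal :=
    Subgroup.Normal.subgroupOf (Gamma_normal K) _
  have : ((Gamma K).subgroupOf (Gamma0 M)).FiniteIndex := inferInstance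
  have hmem := Subgroup.pow_index_mem ((Gamma K).subgroupOf (Gamma0 M)) γ
  have h1 := h _ (Subgroup.mem_subgroupOf.mp hmem)
  rw [ofMul_pow, map_nsmul, nsmul_eq_mul, mul_eq_zero] at h1
  exact h1.resolve_left (Nat.cast_ne_zero.mpr Subgroup.FiniteIndex.index_ne_zero)

/-- **Forms whose periods have vanishing trace are killed by the trace.** -/
theorem traceFree_of_periods (hq : q.Prime) (hqM : q ∣ M) [NeZero (M * q)] (f g : CF (M * q))
    {K : ℕ} [NeZero K] (hK : M * q ∣ K)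
    (h : ∀ e : ℤ, (M : ℤ) ∣ e → ¬ ((q * q : ℕ) : ℤ) ∣ e → ∀ y ∈ Gamma K,
      ∀ hy : ∀ j : ℕ, lowerUni ((j : ℤ) * e) * y * (lowerUni ((j : ℤ) * e))⁻¹ ∈ Gamma0 (M * q),
        ∑ j ∈ Finset.range q, periodHomPair (M * q) (f, g) (Additive.ofMul ⟨_, hy j⟩) = 0) :
    TraceFree q M ⇑f ∧ TraceFree q M ⇑g := by
  have hM0 : M ≠ 0 := fun h0 => NeZero.ne (M * q) (by rw [h0, zero_mul])
  have := NeZero.mk hM0
  suffices key : ∀ e : ℤ, ∀ (hMe : (M : ℤ) ∣ e) (he : ¬ ((q * q : ℕ) : ℤ) ∣ e),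
      lowerTrace hq hqM f hMe he = 0 ∧ lowerTrace hq hqM g hMe he = 0 by
    constructor <;> intro e hMe he
    · rw [← coe_lowerTrace hq hqM f hMe he, (key e hMe he).1]; rfl
    · rw [← coe_lowerTrace hq hqM g hMe he, (key e hMe he).2]; rfl
  intro e hMe he
  have hconj : ∀ a : ℤ, ∀ y ∈ Gamma K,
      lowerUni a * y * (lowerUni a)⁻¹ ∈ Gamma0 (M * q) := fun a y hy =>
    Systems.gamma_le_gamma0 hK ((Gamma_normal K).conj_mem y hy _)
  -- the periods of the traces on deep elements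
  have hper : ∀ (F : CF (M * q)) (e : ℤ) (hMe : (M : ℤ) ∣ e) (he : ¬ ((q * q : ℕ) : ℤ) ∣ e)
      (x : Gamma0 M) (hx : (x : SL(2, ℤ)) ∈ Gamma K),
      periodMap M (lowerTrace hq hqM F hMe he) (Additive.ofMul x) =
        ∑ j ∈ Finset.range q,
          periodMap (M * q) F (Additive.ofMul ⟨_, hconj ((j : ℤ) * e) x hx⟩) := by
    intro F e hMe he x hx
    obtain ⟨-, h2⟩ := periodVec_finset_sum 0 (Finset.range q)
      (fun j => extC (⇑F ∣[(2 : ℤ)] lowerUni ((j : ℤ) * e))) (fun j _ => vDecay_slash F _)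
      (Finset.nonempty_range_iff.mpr hq.ne_zero) _ (det_SL_pos (x : SL(2, ℤ)))
    rw [periodMap_apply, periodLin_apply, coe_lowerTrace]
    have hsum : extC (∑ j ∈ Finset.range q, ⇑F ∣[(2 : ℤ)] lowerUni ((j : ℤ) * e)) =
        fun z => ∑ j ∈ Finset.range q, extC (⇑F ∣[(2 : ℤ)] lowerUni ((j : ℤ) * e)) z := by
      funext z
      simp [extC, Function.comp_apply, Finset.sum_apply]
    rw [hsum, h2, Finset.sum_apply]
    exact Finset.sum_congr rfl fun j _ => periodVec_extC_slash F _ _ _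
  have hneg : ¬ ((q * q : ℕ) : ℤ) ∣ -e := fun h' => he (dvd_neg.mp h')
  have hZneg : ∀ F : CF (M * q),
      lowerTrace hq hqM F hMe he = lowerTrace hq hqM F (dvd_neg.mpr hMe) hneg := fun F => by
    refine DFunLike.coe_injective ?_
    rw [coe_lowerTrace, coe_lowerTrace]
    have := Fact.mk hq
    refine Finset.sum_bij' (fun j _ => ((-(j : ZMod q))).val) (fun j _ => ((-(j : ZMod q))).val)
      (fun j _ => Finset.mem_range.mpr (ZMod.val_lt _))
      (fun j _ => Finset.mem_range.mpr (ZMod.val_lt _))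
      (fun j hj => by
        simp [ZMod.val_natCast, Nat.mod_eq_of_lt (Finset.mem_range.mp hj)])
      (fun j hj => by
        simp [ZMod.val_natCast, Nat.mod_eq_of_lt (Finset.mem_range.mp hj)])
      fun j hj => ?_
    obtain ⟨t, ht⟩ : (q : ℤ) ∣ (j : ℤ) + ((-(j : ZMod q))).val := by
      rw [← ZMod.intCast_zmod_eq_zero_iff_dvd]
      simp
    obtain ⟨e₀, he₀⟩ := hMe
    have hmem : lowerUni ((j : ℤ) * e + (((-(j : ZMod q))).val : ℤ) * e) ∈ Gamma0 (M * q) :=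
      lowerUni_mem ⟨t * e₀, by rw [← add_mul, ht, he₀]; push_cast; ring⟩
    conv_rhs => rw [← slash_eq_self F hmem]
    rw [← SlashAction.slash_mul, lowerUni_add]
    congr 2
    ring
  have hzero : periodHomPair M (lowerTrace hq hqM f hMe he, lowerTrace hq hqM g hMe he) = 0 := by
    refine hom_eq_zero_of_deep (K := K) _ fun x hx => ?_
    refine Eq.trans ?_ (h e hMe he x hx fun j => hconj _ _ hx)
    have hjx : ((jConjGamma0 M x : Gamma0 M) : SL(2, ℤ)) ∈ Gamma K := by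
      rw [jConjGamma0_coe]
      obtain ⟨h00, h01, h10, h11⟩ := Gamma_mem.mp hx
      refine Gamma_mem.mpr ⟨?_, ?_, ?_, ?_⟩ <;> rw [jConjSL_coe] <;> simp [jConjMat, h00, h01, h10, h11]
    have hj : ∀ (F : CF (M * q)) (j : ℕ),
        periodMap (M * q) F (Additive.ofMul ⟨_, hconj ((j : ℤ) * -e) _ hjx⟩) =
          charInvolution (M * q) ℂ ℂ (periodMap (M * q) F)
            (Additive.ofMul ⟨_, hconj ((j : ℤ) * e) _ hx⟩) := fun F j => by
      rw [charInvolution_apply, toMul_ofMul]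
      congr 2
      refine Subtype.ext ?_
      show lowerUni ((j : ℤ) * -e) * (jConjGamma0 M x : SL(2, ℤ)) *
        (lowerUni ((j : ℤ) * -e))⁻¹ = _
      rw [jConjGamma0_coe, jConjGamma0_coe, map_mul, map_mul, map_inv, jConjSL_lowerUni, mul_neg]
    simp only [Periods.periodHomPair_apply, AddMonoidHom.add_apply, AddMonoidHom.sub_apply,
      Finset.sum_add_distrib, Finset.sum_sub_distrib]
    rw [hper f e hMe he x hx, hper g e hMe he x hx, charInvolution_apply, charInvolution_apply,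
      toMul_ofMul, hZneg f, hZneg g, hper f (-e) _ hneg _ hjx, hper g (-e) _ hneg _ hjx]
    simp only [hj]
  have hinj := ModCurve.Forms.periodHomPair_injective M (hzero.trans (map_zero _).symm)
  exact Prod.ext_iff.mp hinj

end FermatAgent.RTLift.NewPart
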