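import Mathlib
import Fermat.Agent.RTLift.NewPart.EigenForm
import Fermat.Agent.RTLift.Systems.PointVector
import Fermat.Agent.ModCurve.Forms.PeriodPairInjective

/-!
Eigenforms carried by a point of a family: the vector of a point, twisted, gives parabolic periods,
hence forms in any stable space containing all forms with such periods.
-/

set_option autoImplicit false

noncomputable section

namespace FermatAgent.RTLift.NewPart

open scoped MatrixGroups
open CongruenceSubgroup ModularCurve ModularCurve.Period ModularFormClass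
open FermatAgent.RTLift.Modules FermatAgent.RTLift.Systems

variable {O : Type} [CommRing O] [IsDomain O] [IsDiscreteValuationRing O]
  {Λ : Type} [CommRing Λ] [Algebra O Λ] [Module.Finite O Λ] [IsReduced Λ]
  {M M₀ N : ℕ} [NeZero N] (h : M₀ ∣ M) {J : Type} (pr : J → Nat.Primes)
  {θ κ : (ZMod M₀)ˣ →* Λ} {S : Set ℕ} (pt : FamPoint O Λ pr κ N S)

set_option maxHeartbeats 1000000 in
/-- **An eigenform carried by a point.** -/
theorem exists_eigenform_of_famPoint (V : Submodule Λ (H1 (levelChar h θ) Λ))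
    (hV : ∀ (s : MvPolynomial J Λ), ∀ y ∈ V, heckeHom h θ Λ pr s y ∈ V) [Module.Finite O V]
    (hpt : ∀ s, (∀ y ∈ V, heckeHom h θ Λ pr s y = 0) → pt.x s = 0) (K : Type) [Field K]
    [CharZero K] [Algebra Λ K] (hK : RingHom.ker (algebraMap Λ K) = RingHom.ker pt.baseHom)
    (hfrac : ∀ z : K, ∃ b c : Λ, c ∉ RingHom.ker pt.baseHom ∧
      z * algebraMap Λ K c = algebraMap Λ K b)
    {N' : ℕ} [NeZero N']
    (Φ : H1 (levelChar h (mapChar θ K)) K →ₗ[K] (Additive (Gamma0 N') →+ K))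
    (hΦinj : Function.Injective Φ) {G : Type} (j : G → J)
    (hjM : ∀ i, ¬ (pr (j i) : ℕ) ∣ M) (hjN : ∀ i, ¬ (pr (j i) : ℕ) ∣ N') (c : G → Λ)
    (hΦ : ∀ i y, Periods.heckeHomT K N' (pr (j i)).2 (hjN i) (Φ y) =
      algebraMap Λ K (c i) • Φ (heckeT h (mapChar θ K) K (pr (j i)).2 (hjM i) y))
    (i₀ : G) (hi₀ : ((pr (j i₀) : ℕ) : ZMod N') = 1)
    (hne : pt.x (MvPolynomial.C (c i₀) * MvPolynomial.X (j i₀)) ≠ ((pr (j i₀) : ℕ) : pt.R) + 1)
    (W : Submodule ℂ (CF N')) (hW : IsHeckeStable W)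
    (hmem : ∀ x : H1 (levelChar h θ) Λ, (∀ s, pt.x s = 0 → heckeHom h θ Λ pr s x = 0) →
      ∀ (s : MvPolynomial J Λ) (u : K →+ ℂ) (f g : CF N'),
        periodHomPair N' (f, g) = u.comp (Φ (toFieldH1 h θ K (heckeHom h θ Λ pr s x))) →
          f ∈ W ∧ g ∈ W) :
    ∃ y ∈ W, y.IsNormalizedEigenform ∧ ∀ P : MvPolynomial G ℤ,
      MvPolynomial.aeval (fun i => pt.x (MvPolynomial.C (c i) * MvPolynomial.X (j i))) P = 0 ↔
        MvPolynomial.aeval (fun i => qCoeff ⇑y (pr (j i) : ℕ)) P = 0 := by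
  classical
  obtain ⟨x₀, hx₀, hx₀'⟩ := exists_vector_of_famPoint h pr pt V hV hpt K hK hfrac
  let φ : MvPolynomial J Λ →+ (Additive (Gamma0 N') →+ K) :=
    { toFun := fun s => Φ (toFieldH1 h θ K (heckeHom h θ Λ pr s x₀))
      map_zero' := by simp
      map_add' := fun s t => by simp }
  let e : G → MvPolynomial J Λ := fun i => MvPolynomial.C (c i) * MvPolynomial.X (j i)
  let a : G → pt.R := fun i => pt.x (e i)
  let T : MvPolynomial G ℤ →ₐ[ℤ] CuspForm.heckeAlgebra N' 2 (∅ : Set ℕ) :=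
    MvPolynomial.aeval fun i => CuspForm.heckeAlgebra.T (k := 2) (pr (j i)).2 (hjN i)
      (Set.notMem_empty _)
  have hφT : ∀ i s, Periods.heckeHomT K N' (pr (j i)).2 (hjN i) (φ s) = φ (e i * s) := fun i s =>
    AddMonoidHom.ext fun γ =>
      heckeHomT_twist_apply h pr K Φ (j i) (hjM i) (hjN i) (c i) (hΦ i) s x₀ γ
  -- the Hecke polynomial removing the Eisenstein part
  set d : MvPolynomial J Λ := e i₀ - (((pr (j i₀) : ℕ) + 1 : ℕ) : MvPolynomial J Λ) with hd
  have hd0 : pt.x d ≠ 0 := by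
    rw [hd, map_sub, map_natCast, sub_ne_zero, Nat.cast_add, Nat.cast_one]
    exact hne
  have hφ0 : ∀ s, pt.x s ≠ 0 → φ s ≠ 0 := fun s hs h0 =>
    hx₀' s hs (hΦinj (h0.trans (map_zero Φ).symm))
  have hpar : IsParabolicHom (Gamma0 N') (φ d) := by
    intro γ hγ
    have h1 := isParabolicHom_sub (pr (j i₀)).2 (hjN i₀) hi₀ (φ 1) γ hγ
    rwa [show Periods.heckeHomT ℕ N' (pr (j i₀)).2 (hjN i₀) (φ 1) =
      Periods.heckeHomT K N' (pr (j i₀)).2 (hjN i₀) (φ 1) from rfl, hφT, mul_one, ← map_nsmul,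
      ← map_sub, nsmul_one, ← hd] at h1
  have hpair : ∀ u : K →ₗ[ℚ] ℂ, ∃ f g : CF N',
      periodHomPair N' (f, g) = u.toAddMonoidHom.comp (φ d) := exists_pair_of_parabolic hpar
  have hT : ∀ (P : MvPolynomial G ℤ) (u : K →ₗ[ℚ] ℂ) (f g : CF N'),
      periodHomPair N' (f, g) = u.toAddMonoidHom.comp (φ d) →
        periodHomPair N' ((T P).1 f, (T P).1 g) =
          u.toAddMonoidHom.comp (φ (MvPolynomial.aeval e P * d)) :=
    fun P u f g hfg => periodHomPair_aeval (K := K) φ u.toAddMonoidHom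
      (fun i => (pr (j i) : ℕ)) (fun i => (pr (j i)).2) hjN e hφT P d f g hfg
  have hxe : ∀ P : MvPolynomial G ℤ, pt.x (MvPolynomial.aeval e P) = MvPolynomial.aeval a P :=
    fun P => (DFunLike.congr_fun (MvPolynomial.comp_aeval (f := e) pt.x.toRingHom.toIntAlgHom) P :)
  have hint : ∀ i, IsIntegral ℤ (a i) := fun i => by
    have := Periods.moduleFinite_heckeAlgebra_all N' 2 (∅ : Set ℕ)
    obtain ⟨P, hP, hP0⟩ := IsIntegral.of_finite ℤ (T (MvPolynomial.X i))
    refine ⟨P, hP, ?_⟩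
    rw [← Polynomial.aeval_def] at hP0 ⊢
    set P' : MvPolynomial G ℤ := Polynomial.aeval (MvPolynomial.X i) P
    have h0 : T P' = 0 := by rw [← Polynomial.aeval_algHom_apply, hP0]
    have h1 : MvPolynomial.aeval a P' = Polynomial.aeval (a i) P := by
      rw [← Polynomial.aeval_algHom_apply, MvPolynomial.aeval_X]
    rw [← h1]
    by_contra hne'
    refine hφ0 (MvPolynomial.aeval e P' * d) (by
      rw [map_mul, hxe]
      exact mul_ne_zero hne' hd0) (eq_of_forall_comp fun u => ?_)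
    obtain ⟨f, g, hfg⟩ := hpair u
    rw [← hT P' u f g hfg, h0]
    rw [ZeroMemClass.coe_zero, LinearMap.zero_apply, LinearMap.zero_apply, Prod.mk_zero_zero,
      map_zero, AddMonoidHom.comp_zero]
  obtain ⟨u, hu⟩ : ∃ u : K →ₗ[ℚ] ℂ, u.toAddMonoidHom.comp (φ d) ≠ 0 := by
    by_contra! h0
    exact hφ0 d hd0 (eq_of_forall_comp fun u => by rw [h0, AddMonoidHom.comp_zero])
  obtain ⟨f, g, hfg⟩ := hpair u
  have hkill : ∀ P : MvPolynomial G ℤ, MvPolynomial.aeval a P = 0 →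
      (T P).1 f = 0 ∧ (T P).1 g = 0 := fun P hP => by
    have hs : heckeHom h θ Λ pr (MvPolynomial.aeval e P * d) x₀ = 0 :=
      hx₀ _ (by rw [map_mul, hxe, hP, zero_mul])
    have hper : periodHomPair N' ((T P).1 f, (T P).1 g) = 0 := by
      rw [hT P u f g hfg]
      show u.toAddMonoidHom.comp (Φ (toFieldH1 h θ K _)) = 0
      rw [hs, map_zero, map_zero, AddMonoidHom.comp_zero]
    exact Prod.ext_iff.mp (ModCurve.Forms.periodHomPair_injective N' (hper.trans (map_zero _).symm))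
  obtain ⟨hfW, hgW⟩ := hmem x₀ hx₀ d u.toAddMonoidHom f g hfg
  rcases em (f = 0) with hf0 | hf0
  · have hg0 : g ≠ 0 := fun hg0 => hu (by
      rw [← hfg, hf0, hg0, Prod.mk_zero_zero, map_zero])
    exact exists_eigenform_system (fun i => (pr (j i) : ℕ)) (fun i => (pr (j i)).2) hjN a hint W
      hW hgW hg0 fun P hP => (hkill P hP).2
  · exact exists_eigenform_system (fun i => (pr (j i) : ℕ)) (fun i => (pr (j i)).2) hjN a hint W
      hW hfW hf0 fun P hP => (hkill P hP).1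

end FermatAgent.RTLift.NewPart
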