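import Mathlib
import Fermat.Agent.RTLift.NewPart.NotOld
import Fermat.Agent.DSLift.Eigenform
import Fermat.Agent.Conductor.Bound

/-!
The level of an eigensystem at a prime `q`: a system with `U_q = ±1` in level `L q` does not occur in
level prime to `q`, and a system of an eigenform of level `L q²` killed by `U_q` and by the trace to
level `L q` only occurs in levels divisible by `q²`.
-/

set_option autoImplicit false

noncomputable section

namespace FermatAgent.RTLift.NewPart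

open CongruenceSubgroup ModularFormClass DSLift

/-- Two normalized eigenforms with the same eigenvalues away from `N` have the same coefficients
at indices prime to `N`. -/
theorem qCoeff_eq_of_coprime {M₁ M₂ N : ℕ} [NeZero M₁] [NeZero M₂] {f : CF M₁} {g : CF M₂}
    (hf : f.IsNormalizedEigenform) (hg : g.IsNormalizedEigenform) (h₁ : M₁ ∣ N) (h₂ : M₂ ∣ N)
    (hag : ∀ l : ℕ, l.Prime → ¬ l ∣ N → qCoeff ⇑f l = qCoeff ⇑g l) (n : ℕ) (hn : n.Coprime N) :
    qCoeff ⇑f n = qCoeff ⇑g n := by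
  induction n using Nat.strong_induction_on with
  | _ n ih =>
    rcases eq_or_ne n 1 with rfl | hn1
    · rw [hf.qCoeff_one, hg.qCoeff_one]
    rcases eq_or_ne n 0 with rfl | hn0
    · rw [qCoeff_zero_index, qCoeff_zero_index]
    obtain ⟨p, hp, hpn⟩ := Nat.exists_prime_and_dvd hn1
    obtain ⟨m, rfl⟩ := hpn
    have hpN : ¬ p ∣ N :=
      hp.coprime_iff_not_dvd.mp (hn.coprime_dvd_left (dvd_mul_right p m))
    have hm0 : 0 < m := Nat.pos_of_ne_zero fun h => hn0 (by rw [h, mul_zero])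
    have hlt : m < p * m := lt_mul_left hm0 hp.one_lt
    have hmN : m.Coprime N := hn.coprime_dvd_left (dvd_mul_left m p)
    rw [mul_comm p m, (isPrimeEigen_of_isNormalizedEigenform hf).qCoeff_mul_prime hp,
      (isPrimeEigen_of_isNormalizedEigenform hg).qCoeff_mul_prime hp, hag p hp hpN, ih m hlt hmN]
    simp only [show ¬ p ∣ M₁ from fun h => hpN (h.trans h₁),
      show ¬ p ∣ M₂ from fun h => hpN (h.trans h₂), not_false_eq_true, and_true]
    by_cases hpm : p ∣ m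
    · rw [if_pos hpm, if_pos hpm, ih (m / p) ((Nat.div_le_self m p).trans_lt hlt)
        (hmN.coprime_dvd_left (Nat.div_dvd_of_dvd hpm))]
    · rw [if_neg hpm, if_neg hpm]

/-- Killing the coefficients at multiples of the elements of `B`. -/
def depleteSet (B : Finset ℕ) (a : ℕ → ℂ) (n : ℕ) : ℂ := if ∃ r ∈ B, r ∣ n then 0 else a n

theorem depleteSet_insert {r : ℕ} (B : Finset ℕ) (a : ℕ → ℂ) :
    depleteSet (insert r B) a = deplete r (depleteSet B a) := funext fun n => by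
  simp only [depleteSet, deplete, Finset.mem_insert, exists_eq_or_imp]
  split_ifs <;> simp_all

/-- Depletion at a set of primes different from `q`, on all three levels simultaneously. -/
theorem exists_level_depleteSet {q : ℕ} (hq : q.Prime) (B : Finset ℕ)
    (hB : ∀ r ∈ B, r.Prime ∧ r ≠ q) {L₀ : ℕ} [NeZero L₀] (hqL : ¬ q ∣ L₀) :
    ∃ L : ℕ, L ≠ 0 ∧ ¬ q ∣ L ∧ (∀ a ∈ coeffs L₀, depleteSet B a ∈ coeffs L) ∧
      (∀ a ∈ coeffs (L₀ * q), depleteSet B a ∈ coeffs (L * q)) ∧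
      ∀ y : CF (L₀ * q * q), TraceFree q (L₀ * q) ⇑y →
        ∃ y' : CF (L * q * q), (∀ n, qCoeff ⇑y' n = depleteSet B (fun n => qCoeff ⇑y n) n) ∧
          TraceFree q (L * q) ⇑y' := by
  induction B using Finset.induction with
  | empty =>
    have h : ∀ a : ℕ → ℂ, depleteSet ∅ a = a := fun a => funext fun n => by simp [depleteSet]
    exact ⟨L₀, NeZero.ne L₀, hqL, fun a ha => (h a).symm ▸ ha, fun a ha => (h a).symm ▸ ha,
      fun y hy => ⟨y, fun n => by rw [h], hy⟩⟩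
  | @insert r B hr ih =>
    obtain ⟨L, hL0, hqL', h1, h2, h3⟩ := ih fun s hs => hB s (Finset.mem_insert_of_mem hs)
    obtain ⟨hrp, hrq⟩ := hB r (Finset.mem_insert_self r B)
    have := NeZero.mk hL0
    have hL' : L * r * r ≠ 0 := mul_ne_zero (mul_ne_zero hL0 hrp.ne_zero) hrp.ne_zero
    have := NeZero.mk hL'
    have : NeZero (L * r * r * q) := ⟨mul_ne_zero hL' hq.ne_zero⟩
    have : NeZero (L * r * r * q * q) := ⟨mul_ne_zero (NeZero.ne _) hq.ne_zero⟩
    have : NeZero (L * q * r * r * q) := ⟨by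
      simp only [ne_eq, mul_eq_zero, hL0, hq.ne_zero, hrp.ne_zero, or_self, not_false_eq_true]⟩
    refine ⟨L * r * r, hL', ?_, fun a ha => ?_, fun a ha => ?_, fun y hy => ?_⟩
    · intro h
      rcases hq.dvd_mul.mp h with h | h
      · rcases hq.dvd_mul.mp h with h | h
        · exact hqL' h
        · exact hrq ((Nat.prime_dvd_prime_iff_eq hq hrp).mp h).symm
      · exact hrq ((Nat.prime_dvd_prime_iff_eq hq hrp).mp h).symm
    · rw [depleteSet_insert]
      exact deplete_mem hrp.ne_zero dvd_rfl (h1 a ha)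
    · rw [depleteSet_insert]
      exact deplete_mem hrp.ne_zero (dvd_of_eq (by ring)) (h2 a ha)
    · obtain ⟨y₁, hy₁, hT₁⟩ := h3 y hy
      obtain ⟨y₂, hy₂, hT₂⟩ := traceFree_deplete hq hrp hrq (dvd_mul_left q L) y₁ hT₁
      refine ⟨restr (dvd_of_eq (by ring)) y₂, fun n => ?_, ?_⟩
      · rw [coe_restr, hy₂, depleteSet_insert, deplete, deplete, hy₁]
      · rw [coe_restr]
        exact hT₂.mono (dvd_of_eq (by ring))

theorem depleteSet_one {B : Finset ℕ} (hB : ∀ r ∈ B, r.Prime) (a : ℕ → ℂ) :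
    depleteSet B a 1 = a 1 :=
  if_neg fun ⟨r, hr, hr1⟩ => (hB r hr).not_dvd_one hr1

theorem depleteSet_mul {q : ℕ} {B : Finset ℕ} (hB : ∀ r ∈ B, r.Prime ∧ r ≠ q) (hq : q.Prime)
    (a : ℕ → ℂ) (n : ℕ) :
    depleteSet B a (n * q) = if ∃ r ∈ B, r ∣ n then 0 else a (n * q) := by
  have : (∃ r ∈ B, r ∣ n * q) ↔ ∃ r ∈ B, r ∣ n := by
    refine ⟨fun ⟨r, hr, h⟩ => ⟨r, hr, ?_⟩, fun ⟨r, hr, h⟩ => ⟨r, hr, h.mul_right q⟩⟩
    exact (Nat.Coprime.dvd_of_dvd_mul_right
      ((Nat.coprime_primes (hB r hr).1 hq).mpr (hB r hr).2) h)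
  simp only [depleteSet, this]

/-- The recursion at `q` survives depletion. -/
theorem depleteSet_tShift {q : ℕ} {B : Finset ℕ} (hB : ∀ r ∈ B, r.Prime ∧ r ≠ q) (hq : q.Prime)
    (a : ℕ → ℂ) {c : ℂ}
    (ha : ∀ n, a (n * q) + (q : ℂ) * (if q ∣ n then a (n / q) else 0) = c * a n) (n : ℕ) :
    depleteSet B a (n * q) + (q : ℂ) * (if q ∣ n then depleteSet B a (n / q) else 0) =
      c * depleteSet B a n := by
  rw [depleteSet_mul hB hq]
  by_cases hqn : q ∣ n
  · obtain ⟨m, rfl⟩ := hqn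
    have h := ha (q * m)
    rw [if_pos (dvd_mul_right q m), Nat.mul_div_cancel_left _ hq.pos] at h ⊢
    rw [show depleteSet B a (q * m) = if ∃ r ∈ B, r ∣ m then 0 else a (q * m) by
      rw [mul_comm, depleteSet_mul hB hq]]
    have hiff : (∃ r ∈ B, r ∣ q * m) ↔ ∃ r ∈ B, r ∣ m := by
      refine ⟨fun ⟨r, hr, h⟩ => ⟨r, hr, ?_⟩, fun ⟨r, hr, h⟩ => ⟨r, hr, h.mul_left q⟩⟩
      exact (Nat.Coprime.dvd_of_dvd_mul_left
        ((Nat.coprime_primes (hB r hr).1 hq).mpr (hB r hr).2) h)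
    simp only [hiff, depleteSet]
    split_ifs
    · ring
    · exact h
  · have h := ha n
    rw [if_neg hqn] at h ⊢
    simp only [depleteSet]
    split_ifs
    · ring
    · exact h

theorem mem_coeffs_qCoeff {L : ℕ} (f : CF L) : (fun n => qCoeff ⇑f n) ∈ coeffs L :=
  mem_coeffs.mpr ⟨f, fun _ => rfl⟩

theorem depleteSet_agree {M₁ M₂ N q : ℕ} [NeZero M₁] [NeZero M₂] [NeZero N] {f : CF M₁}
    {g : CF M₂} (hf : f.IsNormalizedEigenform) (hg : g.IsNormalizedEigenform) (h₁ : M₁ ∣ N)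
    (h₂ : M₂ ∣ N) (hag : ∀ l : ℕ, l.Prime → ¬ l ∣ N → qCoeff ⇑f l = qCoeff ⇑g l) (n : ℕ)
    (hqn : ¬ q ∣ n) :
    depleteSet (N.primeFactors.erase q) (fun n => qCoeff ⇑f n) n =
      depleteSet (N.primeFactors.erase q) (fun n => qCoeff ⇑g n) n := by
  simp only [depleteSet]
  split_ifs with hB
  · rfl
  refine qCoeff_eq_of_coprime hf hg h₁ h₂ hag n (Nat.coprime_of_dvd fun p hp hpn hpN => ?_)
  exact hB ⟨p, Finset.mem_erase.mpr ⟨fun h => hqn (h ▸ hpn),
    Nat.mem_primeFactors.mpr ⟨hp, hpN, NeZero.ne N⟩⟩, hpn⟩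

/-- **`U_q = ±1` in level `L q` does not occur in level prime to `q`.** -/
theorem dvd_level_of_U_sq {q L₀ M : ℕ} [NeZero L₀] [NeZero M] (hq : q.Prime) (hqL : ¬ q ∣ L₀)
    {f : CF (L₀ * q)} (hf : f.IsNormalizedEigenform) (hU : qCoeff ⇑f q ^ 2 = 1) {g : CF M}
    (hg : g.IsNormalizedEigenform) (hM : M ∣ L₀ * q)
    (hag : ∀ l : ℕ, l.Prime → ¬ l ∣ L₀ * q → qCoeff ⇑f l = qCoeff ⇑g l) : q ∣ M := by
  by_contra hqM
  have : NeZero (L₀ * q) := ⟨mul_ne_zero (NeZero.ne L₀) hq.ne_zero⟩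
  have hML : M ∣ L₀ :=
    Nat.Coprime.dvd_of_dvd_mul_right ((hq.coprime_iff_not_dvd.mpr hqM).symm) hM
  set B := (L₀ * q).primeFactors.erase q
  have hB : ∀ r ∈ B, r.Prime ∧ r ≠ q := fun r hr => by
    rw [Finset.mem_erase] at hr
    exact ⟨Nat.prime_of_mem_primeFactors hr.2, hr.1⟩
  obtain ⟨L, hL, hqL', h1, h2, -⟩ := exists_level_depleteSet hq B hB hqL
  have := NeZero.mk hL
  have hfe := (isPrimeEigen_of_isNormalizedEigenform hf).qCoeff_mul_prime hq
  have hge := (isPrimeEigen_of_isNormalizedEigenform hg).qCoeff_mul_prime hq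
  have hroot := root_of_agree hq hqL' (h2 _ (mem_coeffs_qCoeff f))
    (h1 _ (coeffs_mono hML (mem_coeffs_qCoeff g))) (ε := qCoeff ⇑f q) (aq := qCoeff ⇑g q)
    (fun n => by
      rw [depleteSet_mul hB hq, depleteSet, hfe n]
      simp only [dvd_mul_left q L₀, not_true, and_false, if_false, sub_zero]
      split_ifs <;> ring)
    (funext fun n => by
      simp only [Pi.add_apply, Pi.smul_apply, smul_eq_mul, uShift_apply, vShift_apply]
      refine depleteSet_tShift hB hq (fun n => qCoeff ⇑g n) (fun m => ?_) n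
      rw [hge m]
      simp only [hqM, not_false_eq_true, and_true]
      split_ifs <;> ring)
    (fun n hn => depleteSet_agree hf hg dvd_rfl hM hag n hn)
    (by rw [depleteSet_one (fun r hr => (hB r hr).1), hg.qCoeff_one]; exact one_ne_zero)
  set ε := qCoeff ⇑f q
  have hval : qCoeff ⇑g q = ε * ((q : ℂ) + 1) := by
    linear_combination (-ε) * hroot + (ε - qCoeff ⇑g q) * hU
  have hnorm : ‖ε‖ = 1 := by
    have := congrArg norm hU
    rw [norm_pow, norm_one] at this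
    exact (pow_eq_one_iff_of_nonneg (norm_nonneg _) two_ne_zero).mp this
  have hlt := Conductor.norm_qCoeff_lt hg hq hqM
  rw [hval, norm_mul, hnorm, one_mul, ← Nat.cast_one, ← Nat.cast_add, Complex.norm_natCast,
    Nat.cast_add, Nat.cast_one] at hlt
  exact lt_irrefl _ hlt

/-- **A trace-free system of level `L q²` has level divisible by `q²`.** -/
theorem sq_dvd_level_of_traceFree {q L₀ M : ℕ} [NeZero L₀] [NeZero M] (hq : q.Prime)
    (hqL : ¬ q ∣ L₀) {y : CF (L₀ * q * q)} (hy : y.IsNormalizedEigenform)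
    (hU : qCoeff ⇑y q = 0) (hT : TraceFree q (L₀ * q) ⇑y) {g : CF M}
    (hg : g.IsNormalizedEigenform) (hM : M ∣ L₀ * q * q)
    (hag : ∀ l : ℕ, l.Prime → ¬ l ∣ L₀ * q * q → qCoeff ⇑y l = qCoeff ⇑g l) : q * q ∣ M := by
  by_contra hqqM
  have : NeZero (L₀ * q) := ⟨mul_ne_zero (NeZero.ne L₀) hq.ne_zero⟩
  have : NeZero (L₀ * q * q) := ⟨mul_ne_zero (NeZero.ne _) hq.ne_zero⟩
  set B := (L₀ * q * q).primeFactors.erase q
  have hB : ∀ r ∈ B, r.Prime ∧ r ≠ q := fun r hr => by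
    rw [Finset.mem_erase] at hr
    exact ⟨Nat.prime_of_mem_primeFactors hr.2, hr.1⟩
  obtain ⟨L, hL, hqL', h1, h2, h3⟩ := exists_level_depleteSet hq B hB hqL
  have := NeZero.mk hL
  have : NeZero (L * q) := ⟨mul_ne_zero hL hq.ne_zero⟩
  obtain ⟨y', hy', hT'⟩ := h3 y hT
  have hye := (isPrimeEigen_of_isNormalizedEigenform hy).qCoeff_mul_prime hq
  have hge := (isPrimeEigen_of_isNormalizedEigenform hg).qCoeff_mul_prime hq
  have hyq : ∀ n, q ∣ n → qCoeff ⇑y' n = 0 := fun n ⟨m, hm⟩ => by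
    rw [hm, mul_comm q m, hy', depleteSet_mul hB hq, hye m, hU]
    simp
  have hy'G : ∀ n, qCoeff ⇑y' n =
      deplete q (depleteSet B fun n => qCoeff ⇑g n) n := fun n => by
    rw [deplete]
    split_ifs with hn
    · exact hyq n hn
    · rw [hy']
      exact depleteSet_agree hy hg dvd_rfl hM hag n hn
  have hg1 : depleteSet B (fun n => qCoeff ⇑g n) 1 = 1 :=
    (depleteSet_one (fun r hr => (hB r hr).1) _).trans hg.qCoeff_one
  by_cases hqM : q ∣ M
  · obtain ⟨M', rfl⟩ := hqM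
    have hM' : ¬ q ∣ M' := fun h => hqqM (mul_dvd_mul_left q h)
    have hM'L : M' ∣ L₀ := by
      rw [mul_comm q M'] at hM
      exact Nat.Coprime.dvd_of_dvd_mul_right ((hq.coprime_iff_not_dvd.mpr hM').symm)
        ((Nat.mul_dvd_mul_iff_right hq.pos).mp hM)
    have hgm : (fun n => qCoeff ⇑g n) ∈ coeffs (L₀ * q) :=
      coeffs_mono (by rw [mul_comm q M']; exact mul_dvd_mul_right hM'L q) (mem_coeffs_qCoeff g)
    obtain ⟨G, hG⟩ := mem_coeffs.mp (h2 _ hgm)
    have h0 := eq_zero_of_traceFree_of_levelQ hq hqL' G (ε := qCoeff ⇑g q) (fun n => by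
      rw [hG, hG, depleteSet_mul hB hq, depleteSet, hge n]
      simp only [dvd_mul_right q M', not_true, and_false, if_false, sub_zero]
      split_ifs <;> ring) y' hT' fun n => by rw [hy'G, deplete, deplete, hG]
    have h4 := hG 1
    rw [h0, ← qCoeffLin_apply, map_zero, hg1] at h4
    exact zero_ne_one h4
  · have hML : M ∣ L₀ := by
      refine Nat.Coprime.dvd_of_dvd_mul_right ((hq.coprime_iff_not_dvd.mpr hqM).symm) ?_
      exact Nat.Coprime.dvd_of_dvd_mul_right ((hq.coprime_iff_not_dvd.mpr hqM).symm) hM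
    obtain ⟨G, hG⟩ := mem_coeffs.mp (h1 _ (coeffs_mono hML (mem_coeffs_qCoeff g)))
    have h0 := eq_zero_of_traceFree_of_levelPrime hq hqL' G (a := qCoeff ⇑g q) (fun n => by
      rw [hG, hG, hG]
      refine depleteSet_tShift hB hq (fun n => qCoeff ⇑g n) (fun m => ?_) n
      rw [hge m]
      simp only [hqM, not_false_eq_true, and_true]
      split_ifs <;> ring) y' hT' fun n => by rw [hy'G, deplete, deplete, hG]
    rw [hG, hg1] at h0
    exact one_ne_zero h0

end FermatAgent.RTLift.NewPart
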