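import Mathlib
import Fermat.Agent.RTLift.Systems.Iterate
import Fermat.Agent.RTLift.NewPart.TraceFree

/-!
The twist by a character nontrivial at `q`: it kills `U_q` and the trace from level `L q²` to
level `L q`, read on deep elements.
-/

set_option autoImplicit false

noncomputable section

namespace FermatAgent.RTLift.NewPart

open scoped MatrixGroups
open CongruenceSubgroup FermatAgent.RTLift.Modules FermatAgent.RTLift.Systems

theorem crossedExt_zero {Λ A : Type*} [CommRing Λ] [AddCommGroup A] [Module Λ A] {M : ℕ}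
    {χ : Gamma0 M →* Λ} (x : SL(2, ℤ)) : crossedExt (0 : crossedHoms χ A) x = 0 := by
  unfold crossedExt
  split_ifs <;> rfl

/-- A character modulo a product of coprime numbers splits. -/
theorem exists_split_char {a b : ℕ} (hab : a.Coprime b) {Λ : Type*} [CommRing Λ]
    (κ : (ZMod (a * b))ˣ →* Λ) (hκ : ∀ x, κ x ^ 2 = 1 → κ x = 1) :
    ∃ (κa : (ZMod a)ˣ →* Λ) (κb : (ZMod b)ˣ →* Λ),
      (∀ x, κ x = κa (ZMod.unitsMap (dvd_mul_right a b) x) *
        κb (ZMod.unitsMap (dvd_mul_left b a) x)) ∧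
      (∀ x, κa x ^ 2 = 1 → κa x = 1) ∧ (∀ x, κb x ^ 2 = 1 → κb x = 1) := by
  let E : (ZMod (a * b))ˣ ≃* (ZMod a)ˣ × (ZMod b)ˣ :=
    (Units.mapEquiv (ZMod.chineseRemainder hab).toMulEquiv).trans MulEquiv.prodUnits
  have hE1 : ∀ x, (E x).1 = ZMod.unitsMap (dvd_mul_right a b) x := fun x => Units.ext <| by
    change (ZMod.chineseRemainder hab (x : ZMod (a * b))).1 =
      ZMod.castHom (dvd_mul_right a b) (ZMod a) x
    exact DFunLike.congr_fun (Subsingleton.elim ((RingHom.fst _ _).comp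
      (ZMod.chineseRemainder hab).toRingHom) (ZMod.castHom (dvd_mul_right a b) (ZMod a))) _
  have hE2 : ∀ x, (E x).2 = ZMod.unitsMap (dvd_mul_left b a) x := fun x => Units.ext <| by
    change (ZMod.chineseRemainder hab (x : ZMod (a * b))).2 =
      ZMod.castHom (dvd_mul_left b a) (ZMod b) x
    exact DFunLike.congr_fun (Subsingleton.elim ((RingHom.snd _ _).comp
      (ZMod.chineseRemainder hab).toRingHom) (ZMod.castHom (dvd_mul_left b a) (ZMod b))) _
  refine ⟨κ.comp (E.symm.toMonoidHom.comp (MonoidHom.inl _ _)),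
    κ.comp (E.symm.toMonoidHom.comp (MonoidHom.inr _ _)), fun x => ?_, fun x hx => hκ _ hx,
    fun x hx => hκ _ hx⟩
  simp only [MonoidHom.comp_apply, MulEquiv.coe_toMonoidHom, MonoidHom.inl_apply,
    MonoidHom.inr_apply, ← map_mul, Prod.mk_mul_mk, one_mul, mul_one]
  rw [← hE1, ← hE2, Prod.mk.eta, MulEquiv.symm_apply_apply]

section Prime

variable {q : ℕ} [Fact q.Prime] {Λ : Type*} [CommRing Λ] [IsDomain Λ] {M N : ℕ} (h : q ∣ M)
  (h' : q ∣ N) (hN : M * q ∣ N) (κ : (ZMod q)ˣ →* Λ) {θ : (ZMod q)ˣ →* Λ}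
  (hθ : ∀ a, θ a = (1 : (ZMod q)ˣ →* Λ) a * κ (ZMod.unitsMap dvd_rfl a) ^ 2)
  {A : Type*} [AddCommGroup A] [Module Λ A]

omit [IsDomain Λ] in
include hθ in
theorem levelChar_eq_sq (g : Gamma0 M) (a : (ZMod q)ˣ)
    (ha : (((g : SL(2, ℤ)) 0 0 : ℤ) : ZMod q) = a) : levelChar h θ g = κ a ^ 2 := by
  rw [levelChar_apply, hθ, MonoidHom.one_apply, one_mul, ZMod.unitsMap_self, MonoidHom.id_apply,
    show aUnit h g = a from Units.ext ((val_aUnit h g).trans ha)]

theorem sum_twChar_eq_zero (hκ : ∃ a, κ a ≠ 1) : ∑ a : ZMod q, twChar κ a = 0 := by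
  refine MulChar.sum_eq_zero_of_ne_one fun h => ?_
  obtain ⟨a, ha⟩ := hκ
  exact ha (by rw [← twChar_coe κ a, h, MulChar.one_apply a.isUnit])

theorem sum_twChar_inv_eq_zero (hκ : ∃ a, κ a ≠ 1) : ∑ a : ZMod q, (twChar κ)⁻¹ a = 0 := by
  refine MulChar.sum_eq_zero_of_ne_one fun h => ?_
  obtain ⟨a, ha⟩ := hκ
  have h1 := congrArg (fun χ : MulChar (ZMod q) Λ => χ ((a⁻¹ : (ZMod q)ˣ) : ZMod q)) h
  simp only [twChar_inv_coe, inv_inv, MulChar.one_apply (a⁻¹).isUnit] at h1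
  exact ha h1

omit [IsDomain Λ] in
include hθ in
/-- The values at `rShift u * lowerUni (j e)`, in terms of the class. -/
theorem deepVal_rShift_lowerUni (f : crossedHoms (levelChar h θ) A) {e m : ℤ}
    (he : e = (q : ℤ) * m) (hMe : (M : ℤ) ∣ e) (hm : (m : ZMod q) ≠ 0) {K : ℕ}
    (hK : M * (q * q) ∣ K) {y : SL(2, ℤ)} (hy : y ∈ Gamma K) {u : ZMod q} (hu : u ≠ 0)
    (j : ZMod q) :
    (twChar κ)⁻¹ u • deepVal f (rShift q (u.val : ℤ) *
        (lowerUni ((j.val : ℤ) * e) : Matrix (Fin 2) (Fin 2) ℤ)) y =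
      ((twChar κ)⁻¹ u * twChar κ (1 + u * (m : ZMod q) * j) ^ 2) •
          deepVal f (rShift q ((u * (1 + u * (m : ZMod q) * j)⁻¹).val : ℤ)) y +
        if 1 + u * (m : ZMod q) * j = 0 then twChar κ u •
          deepVal f (rShift q 1 *
            (lowerUni (((-(m : ZMod q)⁻¹).val : ℤ) * e) : Matrix (Fin 2) (Fin 2) ℤ)) y
        else 0 := by
  have : NeZero q := ⟨Nat.Prime.ne_zero Fact.out⟩
  obtain ⟨c, hc⟩ := hMe
  set A' : ℤ := 1 + (u.val : ℤ) * m * j.val with hA'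
  have hA : (A' : ZMod q) = 1 + u * (m : ZMod q) * j := by simp [A']
  have hdet : ∀ (v : ℤ) (k : ℤ), (rShift q v *
      (lowerUni k : Matrix (Fin 2) (Fin 2) ℤ)).det.natAbs = q * q := fun v k => by
    rw [Matrix.det_mul, det_rShift, (lowerUni k).det_coe, mul_one, Int.natAbs_mul,
      Int.natAbs_natCast]
  have hdet0 : ∀ (v : ℤ) (k : ℤ), (rShift q v *
      (lowerUni k : Matrix (Fin 2) (Fin 2) ℤ)).det ≠ 0 := fun v k => by
    rw [Matrix.det_mul, det_rShift, (lowerUni k).det_coe, mul_one]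
    exact mul_ne_zero (Nat.cast_ne_zero.mpr (NeZero.ne q)) (Nat.cast_ne_zero.mpr (NeZero.ne q))
  rcases eq_or_ne (1 + u * (m : ZMod q) * j) 0 with ha | ha
  · -- the class common to all these indices
    rw [if_pos ha, ha, MulChar.map_zero, sq, mul_zero, mul_zero, zero_smul, zero_add]
    set j₀ : ZMod q := -(m : ZMod q)⁻¹
    obtain ⟨a', ha'⟩ : (q : ℤ) ∣ A' := by
      rw [← ZMod.intCast_zmod_eq_zero_iff_dvd, hA, ha]
    obtain ⟨a₀, ha₀⟩ : (q : ℤ) ∣ 1 + m * j₀.val := by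
      rw [← ZMod.intCast_zmod_eq_zero_iff_dvd]
      simp [j₀, hm]
    let g : Gamma0 M := ⟨⟨!![(q : ℤ) * a' - u.val * m * j₀.val, a₀ * u.val - a';
        (q : ℤ) * m * (j.val - j₀.val), (q : ℤ) * a₀ - m * j.val], by
      rw [Matrix.det_fin_two_of]
      simp only [A'] at ha'
      linear_combination -((q : ℤ) * a₀ - m * j₀.val) * ha' - ha₀⟩,
      Gamma0_mem.mpr ((ZMod.intCast_zmod_eq_zero_iff_dvd _ _).mpr
        ⟨c * (j.val - j₀.val), by simp [-ZMod.natCast_val]; linear_combination ((j.val : ℤ) - j₀.val) * (hc - he)⟩)⟩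
    have hrep : rShift q (u.val : ℤ) * (lowerUni ((j.val : ℤ) * e) : Matrix (Fin 2) (Fin 2) ℤ) =
        coeMat g * (rShift q 1 * (lowerUni ((j₀.val : ℤ) * e) : Matrix (Fin 2) (Fin 2) ℤ)) := by
      simp only [A'] at ha'
      ext a b
      fin_cases a <;> fin_cases b <;>
        simp [g, coeMat, rShift, coe_lowerUni, Matrix.mul_apply, Fin.sum_univ_two, he,
          -ZMod.natCast_val] <;> grobner
    have hg : levelChar h θ g = κ (Units.mk0 u hu) ^ 2 := by
      refine levelChar_eq_sq h κ hθ g _ ?_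
      simp [g, j₀]
      field_simp
    rw [hrep, deepVal_gamma h f g (hdet0 _ _) (by rw [hdet]; exact hK) hy, hg, smul_smul]
    congr 1
    rw [show (twChar κ)⁻¹ u = κ (Units.mk0 u hu)⁻¹ from twChar_inv_coe κ (Units.mk0 u hu),
      show twChar κ u = κ (Units.mk0 u hu) from twChar_coe κ (Units.mk0 u hu), sq, ← mul_assoc,
      ← map_mul, inv_mul_cancel, map_one, one_mul]
  · rw [if_neg ha, add_zero]
    set v : ZMod q := u * (1 + u * (m : ZMod q) * j)⁻¹
    obtain ⟨b, hb⟩ : (q : ℤ) ∣ (u.val : ℤ) - A' * v.val := by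
      rw [← ZMod.intCast_zmod_eq_zero_iff_dvd, Int.cast_sub, Int.cast_mul, hA, Int.cast_natCast,
        Int.cast_natCast, ZMod.natCast_zmod_val, ZMod.natCast_zmod_val]
      simp only [v]
      field_simp
      ring
    let g : Gamma0 M := ⟨⟨!![A', b; e * j.val, 1 - m * j.val * v.val], by
      rw [Matrix.det_fin_two_of, he]
      linear_combination (m * (j.val : ℤ)) * hb + hA'⟩,
      Gamma0_mem.mpr ((ZMod.intCast_zmod_eq_zero_iff_dvd _ _).mpr
        ⟨c * j.val, by simp [hc, -ZMod.natCast_val]; ring⟩)⟩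
    have hrep : rShift q (u.val : ℤ) * (lowerUni ((j.val : ℤ) * e) : Matrix (Fin 2) (Fin 2) ℤ) =
        coeMat g * rShift q (v.val : ℤ) := by
      ext a b
      fin_cases a <;> fin_cases b <;>
        simp [g, coeMat, rShift, coe_lowerUni, Matrix.mul_apply, Fin.sum_univ_two, he, A',
          -ZMod.natCast_val] <;> grobner
    have hg : levelChar h θ g = κ (Units.mk0 _ ha) ^ 2 :=
      levelChar_eq_sq h κ hθ g _ (by simpa [g] using hA)
    have hdetv : (rShift q (v.val : ℤ)).det.natAbs = q * q := by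
      rw [det_rShift, Int.natAbs_mul, Int.natAbs_natCast]
    rw [hrep, deepVal_gamma h f g (by
      rw [det_rShift]
      exact mul_ne_zero (Nat.cast_ne_zero.mpr (NeZero.ne q)) (Nat.cast_ne_zero.mpr (NeZero.ne q)))
      (by rw [hdetv]; exact hK) hy, hg, smul_smul,
      show twChar κ (1 + u * (m : ZMod q) * j) = κ (Units.mk0 _ ha) from
        twChar_coe κ (Units.mk0 _ ha)]

variable [NeZero N]

omit [NeZero N] in
/-- **The twist kills the trace on deep elements.** -/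
theorem twist_kill_trace (hκ : ∃ a, κ a ≠ 1) (f : crossedHoms (levelChar h θ) A) {e : ℤ}
    (hMe : (M : ℤ) ∣ e) (he : ¬ ((q * q : ℕ) : ℤ) ∣ e) {y : SL(2, ℤ)}
    (hy : y ∈ Gamma (M * N * (q * q))) :
    ∑ j ∈ Finset.range q, crossedExt ((twistCross h h' dvd_rfl hN κ hθ).apply f)
      (lowerUni ((j : ℤ) * e) * y * (lowerUni ((j : ℤ) * e))⁻¹) = 0 := by
  have hq : q.Prime := Fact.out
  have : NeZero q := ⟨hq.ne_zero⟩
  obtain ⟨m, hm⟩ : (q : ℤ) ∣ e := (Int.natCast_dvd_natCast.mpr h).trans hMe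
  have hm' : (m : ZMod q) ≠ 0 := fun h0 => he <| by
    obtain ⟨t, rfl⟩ := (ZMod.intCast_zmod_eq_zero_iff_dvd _ _).mp h0
    exact ⟨t, by rw [hm]; push_cast; ring⟩
  set D := twistCross h h' dvd_rfl hN κ hθ
  have hdt : ∀ u, (D.rep u).det.natAbs = q * q := fun u => by
    rw [twistCross_rep, det_rShift, Int.natAbs_mul, Int.natAbs_natCast]
  have hKN : N ∣ M * N * (q * q) := ⟨M * (q * q), by ring⟩
  have hKM : M * (q * q) ∣ M * N * (q * q) := ⟨N, by ring⟩
  have hterm : ∀ j : ℕ, crossedExt (D.apply f)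
      (lowerUni ((j : ℤ) * e) * y * (lowerUni ((j : ℤ) * e))⁻¹) =
      ∑ u, (twChar κ)⁻¹ u • deepVal f (rShift q (u.val : ℤ) *
        (lowerUni ((j : ℤ) * e) : Matrix (Fin 2) (Fin 2) ℤ)) y := fun j => by
    rw [← deepVal_coe, deepVal_apply D (sep_twistCross h h' dvd_rfl hN κ hθ) hKN
      (fun u => by rw [hdt]; exact hKM) f (S := (lowerUni ((j : ℤ) * e) : Matrix (Fin 2) (Fin 2) ℤ))
      (by rw [(lowerUni ((j : ℤ) * e)).det_coe]; exact one_ne_zero)
      (by rw [(lowerUni ((j : ℤ) * e)).det_coe, Int.natAbs_one, mul_one]) hy]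
    rfl
  simp only [hterm]
  rw [Finset.sum_comm]
  have hzmod : ∀ F : ℕ → A, ∑ j ∈ Finset.range q, F j = ∑ j : ZMod q, F j.val := fun F =>
    Finset.sum_bij' (fun j _ => (j : ZMod q)) (fun j _ => j.val) (fun j _ => Finset.mem_univ _)
      (fun j _ => Finset.mem_range.mpr (ZMod.val_lt j))
      (fun j hj => by simp [ZMod.val_natCast, Nat.mod_eq_of_lt (Finset.mem_range.mp hj)])
      (fun j _ => ZMod.natCast_zmod_val j)
      (fun j hj => by simp [ZMod.val_natCast, Nat.mod_eq_of_lt (Finset.mem_range.mp hj)])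
  simp only [hzmod]
  set G : ZMod q → A := fun v => deepVal f (rShift q (v.val : ℤ)) y
  set G₀ : A := deepVal f (rShift q 1 *
    (lowerUni (((-(m : ZMod q)⁻¹).val : ℤ) * e) : Matrix (Fin 2) (Fin 2) ℤ)) y
  have hrow : ∀ u : ZMod q, ∑ j : ZMod q, (twChar κ)⁻¹ u • deepVal f (rShift q (u.val : ℤ) *
      (lowerUni ((j.val : ℤ) * e) : Matrix (Fin 2) (Fin 2) ℤ)) y =
      (∑ a : ZMod q, ((twChar κ)⁻¹ u * twChar κ a ^ 2) • G (u * a⁻¹)) + twChar κ u • G₀ := by
    intro u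
    rcases eq_or_ne u 0 with rfl | hu
    · simp [MulChar.map_zero]
    · rw [Finset.sum_congr rfl fun j _ => deepVal_rShift_lowerUni h κ hθ f hm hMe hm' hKM hy hu j]
      rw [← Equiv.sum_comp ((Equiv.mulLeft₀ (u * (m : ZMod q)) (mul_ne_zero hu hm')).trans
        (Equiv.addLeft (1 : ZMod q))) fun a => ((twChar κ)⁻¹ u * twChar κ a ^ 2) • G (u * a⁻¹),
        Finset.sum_add_distrib]
      congr 1
      have hone : ∀ j : ZMod q, 1 + u * (m : ZMod q) * j = 0 ↔ j = -(u * (m : ZMod q))⁻¹ :=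
        fun j => by
          have hum : u * (m : ZMod q) ≠ 0 := mul_ne_zero hu hm'
          constructor
          · intro h0
            field_simp
            linear_combination h0
          · rintro rfl
            field_simp
            ring
      simp only [hone, Finset.sum_ite_eq', Finset.mem_univ, if_true]
      rfl
  simp only [hrow, Finset.sum_add_distrib, ← Finset.sum_smul, sum_twChar_eq_zero κ hκ, zero_smul,
    add_zero]
  rw [Finset.sum_comm]
  refine Eq.trans (Finset.sum_congr rfl fun a _ => ?_)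
    ((Finset.sum_smul (s := Finset.univ) (f := twChar κ)
      (x := ∑ v, (twChar κ)⁻¹ v • G v)).symm.trans (by rw [sum_twChar_eq_zero κ hκ, zero_smul]))
  rcases eq_or_ne a 0 with rfl | ha
  · simp [MulChar.map_zero]
  rw [← Equiv.sum_comp (Equiv.mulRight₀ a ha), Finset.smul_sum]
  refine Finset.sum_congr rfl fun v _ => ?_
  rw [Equiv.mulRight₀_apply, mul_inv_cancel_right₀ ha, map_mul, smul_smul]
  congr 1
  have h1 : (twChar κ)⁻¹ a * twChar κ a = 1 := by
    rw [← MulChar.mul_apply, inv_mul_cancel, MulChar.one_apply (Ne.isUnit ha)]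
  linear_combination ((twChar κ)⁻¹ v * twChar κ a) * h1

/-- **The twist kills `U_q`.** -/
theorem twist_kill_U [NeZero q] [Module ℚ A] (hκ : ∃ a, κ a ≠ 1) (x : H1 (levelChar h θ) A) :
    heckeU h' 1 A h' (twistH1 h h' dvd_rfl hN κ hθ A x) = 0 := by
  induction x using Submodule.Quotient.induction_on with
  | H f =>
  rw [twistH1, heckeU, CrossCorr.onH1_mk, CrossCorr.onH1_mk, ← Submodule.Quotient.mk_zero]
  have hM0 : M ≠ 0 := fun h0 => NeZero.ne N (by simpa [h0] using hN)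
  set K : ℕ := M * N * (q * q) * q with hK
  have : NeZero K := ⟨by simp [hK, hM0, NeZero.ne N, NeZero.ne q]⟩
  set D := twistCross h h' dvd_rfl hN κ hθ
  set U := uCross h' (1 : (ZMod q)ˣ →* Λ) h'
  refine mk_eq_of_deep (K := K) _ _ fun y hy => ?_
  have hU : ∀ i, (U.rep i).det.natAbs = q := fun i => by
    show (Periods.upperRep q (i.val : ℤ)).det.natAbs = q
    rw [Periods.det_upperRep, Int.natAbs_natCast]
  have hD : ∀ u, (D.rep u).det.natAbs = q * q := fun u => by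
    rw [twistCross_rep, det_rShift, Int.natAbs_mul, Int.natAbs_natCast]
  rw [crossedExt_zero, crossedExt_apply U (sep_uCross h' 1 h')
    (show N ∣ K from ⟨M * (q * q) * q, by rw [hK]; ring⟩)
    (fun i => by rw [hU, hK]; exact ⟨M * (q * q), by ring⟩) _ hy]
  have hterm : ∀ i : ZMod q, U.weight i • deepVal (D.apply f) (U.rep i) y =
      ∑ u, (twChar κ)⁻¹ u • deepVal f (Periods.upperRep q ((i + u).val : ℤ)) y := by
    intro i
    rw [deepVal_apply D (sep_twistCross h h' dvd_rfl hN κ hθ) (L := M * N * (q * q))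
      ⟨M * (q * q), by ring⟩ (fun u => by rw [hD]; exact ⟨N, by ring⟩) f (U.det_ne i)
      (by rw [hU, hK]) hy, Finset.smul_sum]
    refine Finset.sum_congr rfl fun u _ => ?_
    rw [show U.weight i = 1 by simp [U, uCross, CrossCorr.ofDelta], one_smul]
    congr 1
    obtain ⟨t, ht⟩ : (q : ℤ) ∣ (i.val : ℤ) + u.val - (i + u).val := by
      rw [← ZMod.intCast_zmod_eq_zero_iff_dvd]
      simp
    have hrep : D.rep u * U.rep i = (q : ℤ) •
        (coeMat (Periods.shiftGamma0 M t) * Periods.upperRep q ((i + u).val : ℤ)) := by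
      show rShift q (u.val : ℤ) * Periods.upperRep q (i.val : ℤ) = _
      ext a b
      fin_cases a <;> fin_cases b <;>
        simp [rShift, Periods.upperRep, coeMat, Periods.shiftGamma0, Matrix.mul_apply,
          Fin.sum_univ_two, -ZMod.natCast_val]
      linear_combination (q : ℤ) * ht
    rw [hrep, deepVal_smul f (Nat.cast_ne_zero.mpr (NeZero.ne q)),
      deepVal_gamma h f _ (by rw [Periods.det_upperRep]; exact_mod_cast NeZero.ne q) (K := K)
        (by rw [Periods.det_upperRep, Int.natAbs_natCast, hK]; exact ⟨N * (q * q), by ring⟩) hy,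
      levelChar_apply, show aUnit h (Periods.shiftGamma0 M t) = 1 from
        Units.ext (by simp [Periods.shiftGamma0]), map_one, one_smul]
  simp only [hterm]
  rw [Finset.sum_comm]
  refine Eq.trans (Finset.sum_congr rfl fun u _ => ?_)
    ((Finset.sum_smul (s := Finset.univ) (f := fun u => (twChar κ)⁻¹ u)
      (x := ∑ s : ZMod q, deepVal f (Periods.upperRep q (s.val : ℤ)) y)).symm.trans
      (by rw [sum_twChar_inv_eq_zero κ hκ, zero_smul]))
  rw [← Equiv.sum_comp (Equiv.addRight u)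
    (fun s : ZMod q => deepVal f (Periods.upperRep q (s.val : ℤ)) y), Finset.smul_sum]
  rfl

end Prime

/-- **The twist by `κ`, nontrivial at `q`, into level `M M₀`**: it is new at `q`. -/
theorem exists_twist_kill {Λ : Type*} [CommRing Λ] [IsDomain Λ] (A : Type*) [AddCommGroup A]
    [Module Λ A] [Module ℚ A] [Module.IsTorsionFree Λ A] {M₀ M M₁ q N : ℕ} [Fact q.Prime]
    [NeZero q] [NeZero N] (h : M₀ ∣ M) (hq₀ : M₀ = q * M₁) (R : ℕ) (hR : M = M₀ * R)
    (hcop : M₀.Coprime R) (hsq : Squarefree M₀) (κ θ : (ZMod M₀)ˣ →* Λ)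
    (hθ : ∀ a, θ a = κ a ^ 2) (hκ : ∀ a, κ a ^ 2 = 1 → κ a = 1)
    (hκq : ∃ a, ZMod.unitsMap (Dvd.intro_left q hq₀.symm) a = 1 ∧ κ a ≠ 1)
    (hN : N = M * M₁ * q) :
    ∃ Φ : H1 (levelChar h θ) A →ₗ[Λ] (Additive (Gamma0 N) →+ A), Function.Injective Φ ∧
      (∀ (l : ℕ) (hl : l.Prime) (hlM : ¬ l ∣ M) (hlN : ¬ l ∣ N)
        (hlM₀ : l.Coprime M₀) (x : H1 (levelChar h θ) A),
        Periods.heckeHomT Λ N hl hlN (Φ x) =
          κ (ZMod.unitOfCoprime l hlM₀) • Φ (heckeT h θ A hl hlM x)) ∧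
      (∀ (hqN : q ∣ N) (x : H1 (levelChar h θ) A), Periods.heckeHomU Λ N hqN (Φ x) = 0) ∧
      ∀ (x : H1 (levelChar h θ) A) (e : ℤ), ((M * M₁ : ℕ) : ℤ) ∣ e → ¬ ((q * q : ℕ) : ℤ) ∣ e →
        ∀ y ∈ Gamma (M * M₁ * N * (q * q)),
        ∀ hy : ∀ j : ℕ, lowerUni ((j : ℤ) * e) * y * (lowerUni ((j : ℤ) * e))⁻¹ ∈ Gamma0 N,
          ∑ j ∈ Finset.range q, Φ x (Additive.ofMul ⟨_, hy j⟩) = 0 := by
  subst hq₀
  obtain ⟨κq, κ₁, hsplit, hκq2, hκ₁⟩ :=
    exists_split_char (Nat.coprime_of_squarefree_mul hsq) κ hκ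
  have hκq1 : ∃ a, κq a ≠ 1 := by
    obtain ⟨a, ha1, ha⟩ := hκq
    exact ⟨_, fun h1 => ha (by rw [hsplit, h1, one_mul, ha1, map_one])⟩
  have hκq4 : ∃ a, κq a ^ 2 ≠ 1 := hκq1.imp fun a ha h2 => ha (hκq2 a h2)
  have hMM₁ : NeZero (M * M₁) := ⟨fun h0 => NeZero.ne N (by rw [hN, h0, zero_mul])⟩
  have hqM' : q ∣ M * M₁ := ((dvd_mul_right q M₁).trans h).trans (dvd_mul_right M M₁)
  obtain ⟨Φ, hΦinj, hΦ, -⟩ := exists_twist_part A M₁ (q * M₁) q M h rfl R hR hcop hsq κq κ₁ θ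
    (fun a => by rw [hθ, hsplit]) hκ₁ (M * M₁) hqM' dvd_rfl
  have hθ' : ∀ a, (κq * κq) a =
      (1 : (ZMod q)ˣ →* Λ) a * κq (ZMod.unitsMap dvd_rfl a) ^ 2 := fun a => by
    rw [ZMod.unitsMap_self, MonoidHom.id_apply, MonoidHom.one_apply, one_mul, sq,
      MonoidHom.mul_apply]
  have hqN : q ∣ N := hN ▸ dvd_mul_left q (M * M₁)
  have hMN : M * M₁ * q ∣ N := hN ▸ dvd_rfl
  have hqR : ¬ q ∣ R := fun hd' => (Fact.out : q.Prime).ne_one
    (Nat.dvd_one.mp (hcop ▸ Nat.dvd_gcd (dvd_mul_right q M₁) hd'))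
  have hqM₁ : ¬ q ∣ M₁ :=
    (Fact.out : q.Prime).coprime_iff_not_dvd.mp (Nat.coprime_of_squarefree_mul hsq)
  let J : H1 (levelChar hqN (1 : (ZMod q)ˣ →* Λ)) A →ₗ[Λ] (Additive (Gamma0 N) →+ A) :=
    h1ToHom hqN A
  let T : H1 (levelChar hqM' (κq * κq)) A →ₗ[Λ] H1 (levelChar hqN (1 : (ZMod q)ˣ →* Λ)) A :=
    twistH1 hqM' hqN dvd_rfl hMN κq hθ' A
  have hTinj : Function.Injective T :=
    twistH1_injective (M₁ := M₁ * R * M₁) hqM' hqN dvd_rfl (by rw [hR]; ring)
      (fun hd => by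
        rcases (Fact.out : q.Prime).dvd_mul.mp hd with h1 | h1
        · rcases (Fact.out : q.Prime).dvd_mul.mp h1 with h2 | h2
          · exact hqM₁ h2
          · exact hqR h2
        · exact hqM₁ h1) hMN κq hθ' (fun g _ => MonoidHom.one_apply _) hκq4 A
  refine ⟨J.comp (T.comp Φ), (h1ToHom_injective hqN A).comp (hTinj.comp hΦinj),
    fun l hl hlM hlN hlM₀ x => ?_, fun hqN' x => ?_, fun x e he he' y hy hmem => ?_⟩
  · have hlq : l.Coprime q := hlM₀.coprime_dvd_right (dvd_mul_right q M₁)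
    have hl₁ : l.Coprime M₁ := hlM₀.coprime_dvd_right (dvd_mul_left M₁ q)
    have hlM' : ¬ l ∣ M * M₁ := fun hd => hlN (hd.trans ((dvd_mul_right _ q).trans hMN))
    simp only [LinearMap.comp_apply, J, T]
    rw [← h1ToHom_heckeT, twistH1_heckeT hqM' hqN dvd_rfl hMN κq hθ' hl hlN hlM' hlq,
      hΦ l hl hlM hlM' hl₁, map_smul, map_smul, map_smul, smul_smul, hsplit,
      unitsMap_unitOfCoprime _ hlq, unitsMap_unitOfCoprime _ hl₁]
  · simp only [LinearMap.comp_apply, J, T]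
    rw [← h1ToHom_heckeU, twist_kill_U hqM' hqN hMN κq hθ' hκq1, map_zero]
  · simp only [LinearMap.comp_apply, J, T]
    obtain ⟨f, hf⟩ := Submodule.Quotient.mk_surjective _ (Φ x)
    rw [← hf]
    refine Eq.trans (Finset.sum_congr rfl fun j _ => ?_)
      (twist_kill_trace hqM' hqN hMN κq hθ' hκq1 f he he' hy)
    rw [twistH1, CrossCorr.onH1_mk, h1ToHom_mk, ← crossedExt_coe]

end FermatAgent.RTLift.NewPart
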